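import Mathlib
import Fermat.Prelude.Def_FLTPrelim_CofixedLine
import Fermat.Prelude.Def_FLTPrelim_Ramification
import Fermat.Agent.Lib.EC.TorsionCard
import Fermat.Agent.Lib.EC.FreyTorsionField
import Fermat.Agent.S05.Inertia
import Fermat.Agent.S05

/-!
# P-S13, WP-GL: the global skeleton of "reducible ⇒ cofixed line" for the Frey curve

Blueprint: team note 786 §1 (helper97).  `L = ℚ̄`, `G = Gal(ℚ̄/ℚ)`, `T = E[p](ℚ̄)` for the Frey
curve `E`, `N ⊂ T` a `G`-stable submodule with `N ≠ ⊥, ⊤` (a line, as `#T = p²`).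

* `H₁ = fixSub N = {σ | σ = 1 on N}`, `H₂ = modSub N = {σ | (σ - 1) T ⊂ N}`: normal subgroups of
  `G` containing the fixing subgroup of a number field.
* Local inputs (shared `Prop`s, proved by the local work packages):
  `LocalTwo P` (U2), `NoFixedPoint P` (R2), `LocalP P` (Up); the primes `ℓ ∉ {2, p}` are the landed
  `Fermat.Agent.S05.result`.
* Global inputs: `Minkowski` (MK) and `TransOver` (transitivity of `G` on the valuation subrings
  of `ℚ̄` over a prime), both from WP-MK.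
* `s13_of_blocks` : the frozen conclusion of S13 from these inputs.

Also: `conj_mem_inertiaSubgroupIn` (`I_{τA} = τ I_A τ⁻¹`), `card_tors` (`#T = p²`).
-/

set_option autoImplicit false

namespace Fermat.Agent.S13

open scoped Pointwise
open WeierstrassCurve WeierstrassCurve.Affine WeierstrassCurve.Affine.Point
open Fermat.Agent.S05

/-! ### Conjugation of inertia groups -/

section InertiaConj

variable {K L : Type*} [Field K] [Field L] [Algebra K L]

/-- Characterisation of the inertia group: `σ` stabilises `A` and moves the elements of `A` by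
elements of the maximal ideal only. -/
theorem mem_inertiaSubgroupIn_iff_forall (A : ValuationSubring L) (σ : L ≃ₐ[K] L) :
    σ ∈ A.inertiaSubgroupIn K ↔ σ • A = A ∧ ∀ x ∈ A, A.valuation (σ x - x) < 1 := by
  constructor
  · intro hσ
    exact ⟨inertia_smul_eq hσ, fun x hx => inertia_sub_lt_one hσ hx⟩
  · rintro ⟨h, hx⟩
    have hdec : σ ∈ A.decompositionSubgroup K := h
    refine (mem_inertiaSubgroupIn_iff A σ).mpr ⟨hdec, ?_⟩
    show MulSemiringAction.toRingAut (A.decompositionSubgroup K) (IsLocalRing.ResidueField A)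
      ⟨σ, hdec⟩ = 1
    ext r
    obtain ⟨a, rfl⟩ := IsLocalRing.residue_surjective r
    show (⟨σ, hdec⟩ : A.decompositionSubgroup K) • IsLocalRing.residue A a =
      IsLocalRing.residue A a
    rw [← IsLocalRing.ResidueField.residue_smul, ← sub_eq_zero, ← map_sub,
      IsLocalRing.residue_eq_zero_iff, ValuationSubring.valuation_lt_one_iff]
    exact hx a.1 a.2

theorem valuation_lt_one_iff_inv_notMem (A : ValuationSubring L) (z : L) :
    A.valuation z < 1 ↔ z = 0 ∨ z⁻¹ ∉ A := by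
  by_cases hz : z = 0
  · subst hz
    simp
  · rw [← A.valuation_le_one_iff, map_inv₀, not_le]
    have h0 : A.valuation z ≠ 0 := (Valuation.ne_zero_iff _).mpr hz
    constructor
    · intro h
      right
      exact (one_lt_inv₀ (zero_lt_iff.mpr h0)).mpr h
    · rintro (h | h)
      · exact absurd h hz
      · exact (one_lt_inv₀ (zero_lt_iff.mpr h0)).mp h

theorem mem_smul_iff (τ : L ≃ₐ[K] L) (A : ValuationSubring L) (x : L) :
    x ∈ τ • A ↔ τ.symm x ∈ A := by
  constructor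
  · rintro ⟨y, hy, rfl⟩
    simpa using hy
  · intro h
    exact ⟨τ.symm x, h, by simp⟩

theorem valuation_smul_lt_one_iff (τ : L ≃ₐ[K] L) (A : ValuationSubring L) (z : L) :
    (τ • A).valuation z < 1 ↔ A.valuation (τ.symm z) < 1 := by
  rw [valuation_lt_one_iff_inv_notMem, valuation_lt_one_iff_inv_notMem, mem_smul_iff, map_inv₀,
    EmbeddingLike.map_eq_zero_iff]

/-- Conjugation of inertia groups: `I_{τ A} = τ I_A τ⁻¹`. -/
theorem conj_mem_inertiaSubgroupIn (τ : L ≃ₐ[K] L) (A : ValuationSubring L) {σ : L ≃ₐ[K] L}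
    (hσ : σ ∈ (τ • A).inertiaSubgroupIn K) : τ⁻¹ * σ * τ ∈ A.inertiaSubgroupIn K := by
  obtain ⟨h1, h2⟩ := (mem_inertiaSubgroupIn_iff_forall (τ • A) σ).mp hσ
  refine (mem_inertiaSubgroupIn_iff_forall A _).mpr ⟨?_, fun x hx => ?_⟩
  · rw [mul_smul, mul_smul, h1, inv_smul_smul]
  · have hy : τ x ∈ τ • A := (mem_smul_iff τ A _).mpr (by simpa using hx)
    have h3 := h2 (τ x) hy
    rw [valuation_smul_lt_one_iff] at h3
    have e : τ.symm (σ (τ x) - τ x) = (τ⁻¹ * σ * τ) x - x := by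
      rw [map_sub, AlgEquiv.symm_apply_apply]
      rfl
    rw [e] at h3
    exact h3

end InertiaConj

/-! ### The Frey curve over `ℚ̄` -/

theorem freyCurve_Δ (P : FreyPackage) :
    P.freyCurve.Δ = ((P.a : ℚ) * P.b * P.c) ^ (2 * P.p) / 2 ^ 8 := by
  have h : ((P.a : ℚ)) ^ P.p + (P.b : ℚ) ^ P.p = (P.c : ℚ) ^ P.p := by exact_mod_cast P.hFLT
  simp only [WeierstrassCurve.Δ, WeierstrassCurve.b₂, WeierstrassCurve.b₄, WeierstrassCurve.b₆,
    WeierstrassCurve.b₈, FreyPackage.freyCurve]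
  rw [mul_pow, mul_pow, pow_mul', pow_mul', pow_mul', ← h]
  ring

theorem freyCurve_Δ_ne_zero (P : FreyPackage) : P.freyCurve.Δ ≠ 0 := by
  rw [freyCurve_Δ]
  have : ((P.a : ℚ) * P.b * P.c) ≠ 0 := by exact_mod_cast P.habc0
  positivity

/-- `ℚ̄`. -/
abbrev Qbar : Type := AlgebraicClosure ℚ

/-- The absolute Galois group of `ℚ`. -/
abbrev GQ : Type := Qbar ≃ₐ[ℚ] Qbar

/-- The `p`-torsion of the Frey curve over `ℚ̄`. -/
abbrev Tors (P : FreyPackage) : Type := Submodule.torsionBy ℤ (P.freyCurve⁄Qbar).Point P.p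

instance isElliptic_freyCurve (P : FreyPackage) : (P.freyCurve⁄Qbar).IsElliptic := by
  constructor
  show IsUnit (P.freyCurve.map (algebraMap ℚ Qbar)).Δ
  rw [WeierstrassCurve.map_Δ]
  exact (freyCurve_Δ_ne_zero P).isUnit.map _

/-- `#E[p](ℚ̄) = p²`. -/
theorem card_tors (P : FreyPackage) : Nat.card (Tors P) = P.p ^ 2 := by
  have hp : ((P.p : ℕ) : Qbar) ≠ 0 := by
    exact_mod_cast P.hp0
  exact Fermat.Agent.Lib.EC.TorsionCard.card_torsionBy P.freyCurve Qbar hp

theorem nontrivial_tors (P : FreyPackage) : Nontrivial (Tors P) := by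
  have h : 1 < Nat.card (Tors P) := by
    rw [card_tors]
    have := P.hp5
    nlinarith
  have : Finite (Tors P) := Nat.finite_of_card_ne_zero (by omega)
  exact Finite.one_lt_card_iff_nontrivial.mp h

/-! ### The two normal subgroups attached to a stable submodule -/

variable {P : FreyPackage}

/-- `σ` is trivial on `N`. -/
def TrivOn (N : Submodule (ZMod P.p) (Tors P)) (σ : GQ) : Prop := ∀ x ∈ N, σ • x = x

/-- `σ` is trivial on `T/N`. -/
def TrivMod (N : Submodule (ZMod P.p) (Tors P)) (σ : GQ) : Prop := ∀ x : Tors P, σ • x - x ∈ N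

/-- `H₁`: the subgroup of `G` acting trivially on `N`. -/
def fixSub (N : Submodule (ZMod P.p) (Tors P)) : Subgroup GQ where
  carrier := {σ | TrivOn N σ}
  one_mem' := fun x _ => one_smul _ x
  mul_mem' := by
    intro σ τ hσ hτ x hx
    rw [mul_smul, hτ x hx, hσ x hx]
  inv_mem' := by
    intro σ hσ x hx
    conv_lhs => rw [← hσ x hx]
    rw [inv_smul_smul]

theorem mem_fixSub {N : Submodule (ZMod P.p) (Tors P)} {σ : GQ} : σ ∈ fixSub N ↔ TrivOn N σ :=
  Iff.rfl

/-- `H₂`: the subgroup of `G` acting trivially on `T/N` (`N` stable). -/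
def modSub (N : Submodule (ZMod P.p) (Tors P)) (hN : IsGaloisStable ℚ N) : Subgroup GQ where
  carrier := {σ | TrivMod N σ}
  one_mem' := fun x => by rw [one_smul, sub_self]; exact N.zero_mem
  mul_mem' := by
    intro σ τ hσ hτ x
    have e : (σ * τ) • x - x = σ • (τ • x - x) + (σ • x - x) := by
      rw [mul_smul, smul_sub]; abel
    rw [e]
    exact N.add_mem (hN σ _ (hτ x)) (hσ x)
  inv_mem' := by
    intro σ hσ x
    have e : σ⁻¹ • x - x = -(σ⁻¹ • (σ • x - x)) := by
      rw [smul_sub, inv_smul_smul]; abel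
    rw [e]
    exact N.neg_mem (hN σ⁻¹ _ (hσ x))

theorem mem_modSub {N : Submodule (ZMod P.p) (Tors P)} {hN : IsGaloisStable ℚ N} {σ : GQ} :
    σ ∈ modSub N hN ↔ TrivMod N σ :=
  Iff.rfl

theorem fixSub_normal (N : Submodule (ZMod P.p) (Tors P)) (hN : IsGaloisStable ℚ N) :
    (fixSub N).Normal := by
  constructor
  intro σ hσ τ x hx
  rw [mul_smul, mul_smul, hσ _ (hN τ⁻¹ x hx), smul_inv_smul]

theorem modSub_normal (N : Submodule (ZMod P.p) (Tors P)) (hN : IsGaloisStable ℚ N) :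
    (modSub N hN).Normal := by
  constructor
  intro σ hσ τ x
  have e : (τ * σ * τ⁻¹) • x - x = τ • (σ • (τ⁻¹ • x) - τ⁻¹ • x) := by
    rw [mul_smul, mul_smul, smul_sub, smul_inv_smul]
  rw [e]
  exact hN τ _ (hσ _)

/-- Both subgroups contain the fixing subgroup of a number field. -/
theorem exists_fixingSubgroup_le (P : FreyPackage) :
    ∃ F : IntermediateField ℚ Qbar, FiniteDimensional ℚ F ∧
      ∀ σ : GQ, σ ∈ F.fixingSubgroup → ∀ x : Tors P, σ • x = x := by
  obtain ⟨F, hF, h⟩ := Fermat.Agent.Lib.EC.FreyTorsionField.frey_galoisFactorsThroughFiniteLevel P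
  refine ⟨F, hF, fun σ hσ x => ?_⟩
  have h1 := h σ (fun y hy => hσ ⟨y, hy⟩)
  have h2 := congrArg (fun f : Module.End (ZMod P.p) (Tors P) => f x) h1
  simpa [galoisRepModuleEnd_apply] using h2

/-! ### The local and global inputs -/

/-- **(U2)** inertia at `2` acts trivially on `N` and on `T/N`. -/
def LocalTwo (P : FreyPackage) : Prop :=
  ∀ N : Submodule (ZMod P.p) (Tors P), IsGaloisStable ℚ N → N ≠ ⊥ → N ≠ ⊤ →
    ∀ A : ValuationSubring Qbar, A.LiesOverPrime 2 →
      ∀ σ ∈ A.inertiaSubgroupIn ℚ, TrivOn N σ ∧ TrivMod N σ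

/-- **(R2)** a stable line contains no nonzero `G`-fixed point. -/
def NoFixedPoint (P : FreyPackage) : Prop :=
  ∀ N : Submodule (ZMod P.p) (Tors P), IsGaloisStable ℚ N → N ≠ ⊥ → N ≠ ⊤ →
    ∀ x ∈ N, (∀ σ : GQ, σ • x = x) → x = 0

/-- **(Up)** inertia at `p` acts trivially on `N` or on `T/N`. -/
def LocalP (P : FreyPackage) : Prop :=
  ∀ N : Submodule (ZMod P.p) (Tors P), IsGaloisStable ℚ N → N ≠ ⊥ → N ≠ ⊤ →
    ∀ B : ValuationSubring Qbar, B.LiesOverPrime P.p →
      (∀ σ ∈ B.inertiaSubgroupIn ℚ, TrivOn N σ) ∨ (∀ σ ∈ B.inertiaSubgroupIn ℚ, TrivMod N σ)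

/-- **(MK)** Minkowski: a normal subgroup of `G` of finite level containing all inertia groups
is everything. -/
def Minkowski : Prop :=
  ∀ H : Subgroup GQ, H.Normal →
    (∃ F : IntermediateField ℚ Qbar, FiniteDimensional ℚ F ∧ F.fixingSubgroup ≤ H) →
    (∀ ℓ : ℕ, ℓ.Prime → ∀ A : ValuationSubring Qbar, A.LiesOverPrime ℓ →
      A.inertiaSubgroupIn ℚ ≤ H) → H = ⊤

/-- Transitivity of `G` on the valuation subrings of `ℚ̄` over a prime. -/
def TransOver : Prop :=
  ∀ ℓ : ℕ, ℓ.Prime → ∀ A B : ValuationSubring Qbar, A.LiesOverPrime ℓ → B.LiesOverPrime ℓ →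
    ∃ τ : GQ, τ • A = B

/-! ### The assembly -/

/-- Uniformity of (Up) over the valuation subrings above `p`. -/
theorem localP_uniform (hT : TransOver) (hp : LocalP P)
    (N : Submodule (ZMod P.p) (Tors P)) (hN : IsGaloisStable ℚ N) (h0 : N ≠ ⊥) (h1 : N ≠ ⊤) :
    (∀ B : ValuationSubring Qbar, B.LiesOverPrime P.p → B.inertiaSubgroupIn ℚ ≤ fixSub N) ∨
      (∀ B : ValuationSubring Qbar, B.LiesOverPrime P.p →
        B.inertiaSubgroupIn ℚ ≤ modSub N hN) := by
  by_cases hex : ∃ B₀ : ValuationSubring Qbar, B₀.LiesOverPrime P.p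
  · obtain ⟨B₀, hB₀⟩ := hex
    have hn1 := fixSub_normal N hN
    have hn2 := modSub_normal N hN
    have key : ∀ (H : Subgroup GQ), H.Normal → B₀.inertiaSubgroupIn ℚ ≤ H →
        ∀ B : ValuationSubring Qbar, B.LiesOverPrime P.p → B.inertiaSubgroupIn ℚ ≤ H := by
      intro H hH hle B hB σ hσ
      obtain ⟨τ, rfl⟩ := hT P.p P.pp B₀ B hB₀ hB
      have h2 := hle (conj_mem_inertiaSubgroupIn τ B₀ hσ)
      have h3 := hH.conj_mem _ h2 τ
      have e : τ * (τ⁻¹ * σ * τ) * τ⁻¹ = σ := by group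
      rwa [e] at h3
    rcases hp N hN h0 h1 B₀ hB₀ with h | h
    · exact Or.inl (key _ hn1 h)
    · exact Or.inr (key _ hn2 h)
  · left
    intro B hB
    exact absurd ⟨B, hB⟩ hex

/-- **S13 from the blocks.** -/
theorem s13_of_blocks (P : FreyPackage) (h2 : LocalTwo P) (hR : NoFixedPoint P) (hp : LocalP P)
    (hMK : Minkowski) (hT : TransOver)
    (hred : ¬ GaloisRepIsIrreducible (K := AlgebraicClosure ℚ) ℚ P.freyCurve P.p) :
    HasGaloisStableCofixedLine (K := AlgebraicClosure ℚ) ℚ P.freyCurve P.p := by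
  -- a stable submodule `N ≠ ⊥, ⊤`
  have hex : ∃ N : Submodule (ZMod P.p) (Tors P), IsGaloisStable ℚ N ∧ N ≠ ⊥ ∧ N ≠ ⊤ := by
    by_contra hcon
    apply hred
    refine ⟨nontrivial_tors P, fun N hN => ?_⟩
    by_contra h
    rw [not_or] at h
    exact hcon ⟨N, hN, h.1, h.2⟩
  obtain ⟨N, hN, h0, h1⟩ := hex
  obtain ⟨F, hF, hFfix⟩ := exists_fixingSubgroup_le P
  -- inertia at the primes `ℓ ∉ {2, p}` and at `2`
  have hother : ∀ ℓ : ℕ, ℓ.Prime → ℓ ≠ P.p → ∀ A : ValuationSubring Qbar, A.LiesOverPrime ℓ →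
      ∀ σ ∈ A.inertiaSubgroupIn ℚ, TrivOn N σ ∧ TrivMod N σ := by
    intro ℓ hℓ hℓp A hA σ hσ
    by_cases hℓ2 : ℓ = 2
    · subst hℓ2
      exact h2 N hN h0 h1 A hA σ hσ
    · have h := Fermat.Agent.S05.result P hℓ hℓ2 hℓp A hA σ hσ
      refine ⟨fun x _ => h x, fun x => ?_⟩
      have hx : σ • x = x := h x
      rw [hx, sub_self]
      exact N.zero_mem
  rcases localP_uniform hT hp N hN h0 h1 with hpc | hpc
  · -- `H₁ = ⊤`: impossible by (R2)
    exfalso
    have htop : fixSub N = ⊤ := by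
      refine hMK _ (fixSub_normal N hN) ⟨F, hF, fun σ hσ x _ => hFfix σ hσ x⟩ ?_
      intro ℓ hℓ A hA
      by_cases hℓp : ℓ = P.p
      · subst hℓp
        exact hpc A hA
      · intro σ hσ
        exact (hother ℓ hℓ hℓp A hA σ hσ).1
    apply h0
    rw [Submodule.eq_bot_iff]
    intro x hx
    refine hR N hN h0 h1 x hx fun σ => ?_
    have hσ : σ ∈ fixSub N := by rw [htop]; exact Subgroup.mem_top σ
    exact hσ x hx
  · -- `H₂ = ⊤`: the goal
    have htop : modSub N hN = ⊤ := by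
      refine hMK _ (modSub_normal N hN) ⟨F, hF, fun σ hσ x => ?_⟩ ?_
      · rw [hFfix σ hσ x, sub_self]
        exact N.zero_mem
      · intro ℓ hℓ A hA
        by_cases hℓp : ℓ = P.p
        · subst hℓp
          exact hpc A hA
        · intro σ hσ
          exact (hother ℓ hℓ hℓp A hA σ hσ).2
    refine ⟨N, hN, h0, h1, fun σ x => ?_⟩
    have hσ : σ ∈ modSub N hN := by rw [htop]; exact Subgroup.mem_top σ
    exact hσ x

end Fermat.Agent.S13
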