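/-
helper2.  P-S13, WP-Lp (blueprint note 786 §6): inertia at `p` acts trivially on a Galois stable
line `N ⊂ E[p]` of the Frey curve or on `E[p]/N`.

Let `B` be a valuation subring of `ℚ̄` over `p`.  On the two-torsion model `W₂` of the Frey curve
adapted to `B` (good or multiplicative reduction), every `σ ∈ I_B` moves every `p`-torsion point
by an element of the kernel of reduction `E₁` (`LocalP/Frey.lean`), so `(σ - 1) T ⊂ T₁ := T ∩ E₁`.
If `T₁ = T`, the rational number `∏_{j ≤ (p-1)/2} x(j P₀)` (`P₀` a generator of `N`) has valuation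
`≥ v(p)⁻¹`, which contradicts the product formula (G2) (`LocalP/Rational.lean`); the product
formula enters as the hypothesis `ProductBound`.  Hence `T₁ ≠ T`, and the linear algebra of
`LocalP/Flag.lean` gives the alternative.
-/
import Fermat.Agent.S13.Global
import Fermat.Agent.S13.LocalP.Flag
import Fermat.Agent.S13.LocalP.Rational
import Fermat.Agent.S13.LocalP.Frey
import Fermat.Agent.S52.FamilyDescent

set_option autoImplicit false

namespace Fermat.Agent.S13.LocalP

open WeierstrassCurve WeierstrassCurve.Affine WeierstrassCurve.Affine.Point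
open Fermat.Agent.S05 Module

/-- The torsion of the Frey curve is a plane over `𝔽_p`. -/
theorem finrank_tors (P : FreyPackage) : finrank (ZMod P.p) (Tors P) = 2 := by
  have : Fact P.p.Prime := ⟨P.pp⟩
  have hcard := card_tors P
  have hfin : Finite (Tors P) := Nat.finite_of_card_ne_zero (by
    rw [hcard]; exact pow_ne_zero _ P.hp0)
  have h := Module.natCard_eq_pow_finrank (K := ZMod P.p) (V := Tors P)
  rw [hcard, Nat.card_zmod] at h
  exact (Nat.pow_right_injective P.pp.two_le h).symm

/-- **(Up)** from the product formula for the two-torsion models of the Frey curve. -/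
theorem localP_of_productBound (P : FreyPackage)
    (hPF : ∀ B : ValuationSubring Qbar, B.LiesOverPrime P.p → ∀ W₂ : Affine ℚ,
      (W₂ = freyTwoAB P ∨ W₂ = freyTwoC P) → ProductBound B (W₂⁄Qbar) P.p) :
    Fermat.Agent.S13.LocalP P := by
  intro N hN h0 h1 B hB
  have : Fact P.p.Prime := ⟨P.pp⟩
  have hfin := finrank_tors P
  obtain ⟨W₂, C, hC, hW₂, M⟩ := exists_localModel (K := Qbar) P B hB
  obtain ⟨ψ, hinj, hcomm⟩ := exists_transfer (K := Qbar) P.freyCurve W₂ C hC
  have hPB := hPF B hB W₂ hW₂
  -- `p`-torsion is preserved by `ψ`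
  have htors : ∀ x : Tors P, P.p • ψ x.1 = 0 := by
    intro x
    have h := x.2
    rw [Submodule.mem_torsionBy_iff, natCast_zsmul] at h
    rw [← map_nsmul, h, _root_.map_zero]
  -- the part of the torsion in the kernel of reduction
  let T₁a : AddSubgroup (Tors P) :=
    { carrier := {x | NearZero B (ψ x.1)}
      add_mem' := by
        intro x y hx hy
        show NearZero B (ψ (x + y).1)
        rw [Submodule.coe_add, map_add]
        exact nearZero_add M.twoModel B M.ha M.hb hx hy
      zero_mem' := by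
        show NearZero B (ψ (0 : Tors P).1)
        rw [Submodule.coe_zero, _root_.map_zero]
        exact trivial
      neg_mem' := by
        intro x hx
        show NearZero B (ψ (-x).1)
        rw [Submodule.coe_neg, map_neg]
        exact nearZero_neg B hx }
  let T₁ : Submodule (ZMod P.p) (Tors P) := AddSubgroup.toZModSubmodule P.p T₁a
  have hmem : ∀ x : Tors P, x ∈ T₁ ↔ NearZero B (ψ x.1) := fun x => Iff.rfl
  -- the action of the Galois group through `ψ`
  have hact : ∀ (σ : GQ) (x : Tors P),
      ψ (σ • x).1 = Point.map (W' := W₂) σ.toAlgHom (ψ x.1) := by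
    intro σ x
    exact hcomm σ.toAlgHom x.1
  -- (i) inertia moves points by elements of `T₁`
  have hi : ∀ σ ∈ B.inertiaSubgroupIn ℚ, ∀ x : Tors P, σ • x - x ∈ T₁ := by
    intro σ hσ x
    rw [hmem, Submodule.coe_sub, map_sub, hact]
    refine M.near σ.toAlgHom (fun t ht => inertia_sub_lt_one hσ ht) (fun t ht h => ht ?_)
      (ψ x.1) (htors x)
    exact (inertia_map_mem_iff hσ).mp h
  -- (ii) `T₁ ≠ ⊤`
  have hii : T₁ ≠ ⊤ := by
    intro htop
    have hall : ∀ x : Tors P, NearZero B (ψ x.1) := fun x => by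
      rw [← hmem, htop]; exact Submodule.mem_top
    obtain ⟨x₀, hx₀N, hx₀0⟩ := (Submodule.ne_bot_iff N).mp h0
    obtain ⟨x₁, hx₁⟩ : ∃ x₁ : Tors P, x₁ ∉ N := by
      by_contra hcon
      push Not at hcon
      exact h1 (Submodule.eq_top_iff'.mpr hcon)
    have hP₀ : P.p • ψ x₀.1 = 0 := htors x₀
    have hne : ψ x₀.1 ≠ 0 := by
      intro h
      apply hx₀0
      apply Subtype.ext
      apply hinj
      rw [h, Submodule.coe_zero, _root_.map_zero]
    have hnsmul : ∀ (k : ℕ) (x : Tors P), ψ (k • x).1 = k • ψ x.1 := by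
      intro k x
      rw [Submodule.coe_smul_of_tower, map_nsmul]
    have hstab : ∀ σ : GQ, ∃ k : ℕ,
        Point.map (W' := W₂) σ.toAlgHom (ψ x₀.1) = k • ψ x₀.1 := by
      intro σ
      obtain ⟨c, hc⟩ := exists_smul_eq_of_line hfin h0 h1 hx₀N hx₀0 (hN σ x₀ hx₀N)
      refine ⟨c.val, ?_⟩
      rw [← hact, ← hc, ← hnsmul]
      congr 2
      rw [← Nat.cast_smul_eq_nsmul (ZMod P.p), ZMod.natCast_zmod_val]
    refine false_of_productBound
      (fun t ht => Fermat.Agent.S52.FamilyDescent.exists_rat_of_fixed t ht) B (p_ne_two P) hB hPB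
      hP₀ hne hstab (fun j => ?_) (htors x₁) (hall x₁) (fun k hk => hx₁ ?_)
    · rw [← hnsmul]
      exact hall _
    · rw [← hnsmul] at hk
      have : x₁ = k • x₀ := Subtype.ext (hinj hk)
      rw [this]
      exact N.smul_of_tower_mem k hx₀N
  rcases le_or_inf_eq_bot hfin h0 h1 hii with h | h
  · right
    intro σ hσ x
    exact h (hi σ hσ x)
  · left
    intro σ hσ x hx
    have h3 : σ • x - x ∈ T₁ ⊓ N := ⟨hi σ hσ x, N.sub_mem (hN σ x hx) hx⟩
    rw [h] at h3
    exact sub_eq_zero.mp ((Submodule.mem_bot _).mp h3)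

end Fermat.Agent.S13.LocalP
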