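/-
helper2.  P-S13, WP-Lp: (Up) from the product formula (G2) in the shape of WP-G2
(`Fermat.Agent.S13.ProductFormula.prod_max_valuation_xCoord_le`, team note 807), taken here as
the hypothesis `G2Statement`.
-/
import Fermat.Agent.S13.LocalP
import Fermat.Agent.Lib.EC.Reduction.KernelGeneral
import Fermat.Agent.Lib.EC.FunctionField.LocalOrder

set_option autoImplicit false

namespace Fermat.Agent.S13.LocalP

open WeierstrassCurve WeierstrassCurve.Affine
open Fermat.Agent.S05 Fermat.Agent.Lib.EC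

/-- The product formula (G2) for curves over `ℚ` and valuation subrings of `ℚ̄`. -/
def G2Statement : Prop :=
  ∀ (W : WeierstrassCurve ℚ) [(W⁄Qbar).IsElliptic] (B : ValuationSubring Qbar),
    IsIntegralOver B (W⁄Qbar).toAffine → ∀ {n : ℕ}, Odd n → (n : Qbar) ≠ 0 →
    ∀ S : Finset (W⁄Qbar).toAffine.Point, (∀ Q ∈ S, Q ≠ 0 ∧ n • Q = 0) →
      ∏ Q ∈ S, max 1 (B.valuation (LocalOrder.xCoord (W⁄Qbar).toAffine Q)) ≤
        ((B.valuation (n : Qbar))⁻¹) ^ 2

theorem xCoord_eq_xc {K : Type*} [Field K] {W : Affine K} (Q : W.Point) :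
    LocalOrder.xCoord W Q = xc Q := by
  rcases Q with _ | ⟨x, y, h⟩ <;> rfl

/-- `ProductBound` from the product formula with `max 1`. -/
theorem productBound_of_prod_max {K : Type*} [Field K] [DecidableEq K] {W : Affine K} (B : ValuationSubring K)
    (n : ℕ)
    (h : ∀ S : Finset W.Point, (∀ Q ∈ S, Q ≠ 0 ∧ n • Q = 0) →
      ∏ Q ∈ S, max 1 (B.valuation (LocalOrder.xCoord W Q)) ≤ ((B.valuation (n : K))⁻¹) ^ 2) :
    ProductBound B W n := by
  intro S hS
  refine le_trans (le_of_eq ?_) (h S fun Q hQ => ⟨(hS Q hQ).2.1, (hS Q hQ).1⟩)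
  refine Finset.prod_congr rfl fun Q hQ => ?_
  obtain ⟨-, hQ0, hQn⟩ := hS Q hQ
  rw [xCoord_eq_xc, max_eq_right (one_lt_valuation_xc B hQn hQ0).le]

theorem Δ_ne_zero_of_smul_eq {W₁ W₂ : WeierstrassCurve ℚ} {C : VariableChange ℚ}
    (hC : C • W₂ = W₁) (h : W₁.Δ ≠ 0) : W₂.Δ ≠ 0 := by
  intro h0
  apply h
  rw [← hC, variableChange_Δ, h0, mul_zero]

theorem isElliptic_of_Δ_ne_zero {W : WeierstrassCurve ℚ} (h : W.Δ ≠ 0) :
    (W⁄Qbar).IsElliptic := by
  constructor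
  show IsUnit (W.map (algebraMap ℚ Qbar)).Δ
  rw [WeierstrassCurve.map_Δ]
  exact h.isUnit.map _

theorem isElliptic_freyTwoAB (P : FreyPackage) : ((freyTwoAB P)⁄Qbar).IsElliptic :=
  isElliptic_of_Δ_ne_zero (Δ_ne_zero_of_smul_eq (changeTwoAB_smul P) (freyCurve_Δ_ne_zero P))

theorem isElliptic_freyTwoC (P : FreyPackage) : ((freyTwoC P)⁄Qbar).IsElliptic :=
  isElliptic_of_Δ_ne_zero (Δ_ne_zero_of_smul_eq (changeTwoC_smul P) (freyCurve_Δ_ne_zero P))

theorem isIntegralOver_freyTwoAB (P : FreyPackage) (B : ValuationSubring Qbar) :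
    IsIntegralOver B ((freyTwoAB P)⁄Qbar).toAffine := by
  have hW := isTwoModel_AB (K := Qbar) P
  refine ⟨?_, a₂_AB_mem P B, ?_, a₄_AB_mem P B, ?_⟩
  · show ((freyTwoAB P)⁄Qbar).a₁ ∈ B
    rw [hW.a₁]; exact B.zero_mem
  · show ((freyTwoAB P)⁄Qbar).a₃ ∈ B
    rw [hW.a₃]; exact B.zero_mem
  · show ((freyTwoAB P)⁄Qbar).a₆ ∈ B
    rw [hW.a₆]; exact B.zero_mem

theorem isIntegralOver_freyTwoC (P : FreyPackage) (B : ValuationSubring Qbar) :
    IsIntegralOver B ((freyTwoC P)⁄Qbar).toAffine := by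
  have hW := isTwoModel_C (K := Qbar) P
  refine ⟨?_, a₂_C_mem P B, ?_, a₄_C_mem P B, ?_⟩
  · show ((freyTwoC P)⁄Qbar).a₁ ∈ B
    rw [hW.a₁]; exact B.zero_mem
  · show ((freyTwoC P)⁄Qbar).a₃ ∈ B
    rw [hW.a₃]; exact B.zero_mem
  · show ((freyTwoC P)⁄Qbar).a₆ ∈ B
    rw [hW.a₆]; exact B.zero_mem

/-- **(Up)** from the product formula. -/
theorem localP_of_G2 (hG2 : G2Statement) (P : FreyPackage) : Fermat.Agent.S13.LocalP P := by
  refine localP_of_productBound P fun B _ W₂ hW₂ => ?_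
  have hp0 : ((P.p : ℕ) : Qbar) ≠ 0 := by exact_mod_cast P.hp0
  rcases hW₂ with rfl | rfl
  · have := isElliptic_freyTwoAB P
    exact productBound_of_prod_max B P.p fun S hS =>
      hG2 (freyTwoAB P) B (isIntegralOver_freyTwoAB P B) P.hp_odd hp0 S hS
  · have := isElliptic_freyTwoC P
    exact productBound_of_prod_max B P.p fun S hS =>
      hG2 (freyTwoC P) B (isIntegralOver_freyTwoC P B) P.hp_odd hp0 S hS

end Fermat.Agent.S13.LocalP
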