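import Mathlib

/-!
# P-S13 / WP-G2, part A: evaluation of split polynomials at generic integral points

`k` an algebraically closed field, `B` a valuation subring.  For a finite set `S ⊆ B` there is
`x₀ ∈ B` with `v (x₀ - r) = 1` for all `r ∈ S` (a root of `∏ (X - r) + 1`).  For such an `x₀` the
valuation of `p.eval x₀` is `v (leadingCoeff p)` times the product of the `v r` over the
non-integral roots `r` of `p`.
-/

set_option autoImplicit false

open Polynomial

namespace Fermat.Agent.S13.GenericEval

variable {k : Type*} [Field k] (B : ValuationSubring k)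

/-- a root of a monic polynomial with integral coefficients is integral (valuation form). -/
theorem mem_of_prod_sub_eq {ι : Type*} (S : Finset ι) (r : ι → k) (hr : ∀ i ∈ S, r i ∈ B)
    (hS : S.Nonempty) {x₀ : k} (h : ∏ i ∈ S, (x₀ - r i) = -1) : x₀ ∈ B := by
  by_contra hx
  have hx1 : 1 < B.valuation x₀ := by
    rw [← not_le, B.valuation_le_one_iff]; exact hx
  have hfac : ∀ i ∈ S, B.valuation (x₀ - r i) = B.valuation x₀ := by
    intro i hi
    have hri : B.valuation (r i) ≤ 1 := (B.valuation_le_one_iff _).mpr (hr i hi)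
    exact Valuation.map_sub_eq_of_lt_left _ (lt_of_le_of_lt hri hx1)
  have hv := congrArg B.valuation h
  rw [map_prod, Valuation.map_neg, map_one, Finset.prod_congr rfl hfac, Finset.prod_const] at hv
  have : 1 < B.valuation x₀ ^ S.card := one_lt_pow₀ hx1 (Finset.card_pos.mpr hS).ne'
  rw [hv] at this
  exact lt_irrefl _ this

/-- **Generic integral point**: avoid finitely many residue classes. -/
theorem exists_generic [IsAlgClosed k] {ι : Type*} (S : Finset ι) (r : ι → k)
    (hr : ∀ i ∈ S, r i ∈ B) :
    ∃ x₀ : k, x₀ ∈ B ∧ ∀ i ∈ S, B.valuation (x₀ - r i) = 1 := by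
  classical
  rcases S.eq_empty_or_nonempty with rfl | hS
  · exact ⟨0, B.zero_mem, by simp⟩
  let p : k[X] := ∏ i ∈ S, (X - C (r i)) + 1
  have hdeg : (∏ i ∈ S, (X - C (r i)) : k[X]).natDegree = S.card := by
    rw [natDegree_prod_of_monic _ _ (fun i _ => monic_X_sub_C (r i))]
    simp
  have hp : p.degree ≠ 0 := by
    have h1 : p.natDegree = S.card := by
      have hlt : (1 : k[X]).degree < (∏ i ∈ S, (X - C (r i)) : k[X]).degree := by
        rw [degree_one, degree_eq_natDegree
          (Monic.ne_zero (monic_prod_of_monic _ _ (fun i _ => monic_X_sub_C (r i)))), hdeg]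
        exact_mod_cast Finset.card_pos.mpr hS
      rw [natDegree_add_eq_left_of_degree_lt hlt, hdeg]
    intro h0
    have := natDegree_eq_of_degree_eq_some h0
    rw [h1] at this
    exact (Finset.card_pos.mpr hS).ne' this
  obtain ⟨x₀, hx₀⟩ := IsAlgClosed.exists_root p hp
  have hprod : ∏ i ∈ S, (x₀ - r i) = -1 := by
    have : p.eval x₀ = 0 := hx₀
    simp only [p, eval_add, eval_prod, eval_sub, eval_X, eval_C, eval_one] at this
    linear_combination this
  have hxB := mem_of_prod_sub_eq B S r hr hS hprod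
  refine ⟨x₀, hxB, fun i hi => ?_⟩
  have hle : ∀ j ∈ S, B.valuation (x₀ - r j) ≤ 1 := fun j hj =>
    (B.valuation_le_one_iff _).mpr (B.sub_mem hxB (hr j hj))
  have hv := congrArg B.valuation hprod
  rw [map_prod, Valuation.map_neg, map_one] at hv
  by_contra hne
  have hlt : B.valuation (x₀ - r i) < 1 := lt_of_le_of_ne (hle i hi) hne
  have : ∏ j ∈ S, B.valuation (x₀ - r j) < 1 := by
    rw [← Finset.mul_prod_erase S _ hi]
    calc B.valuation (x₀ - r i) * ∏ j ∈ S.erase i, B.valuation (x₀ - r j)
        ≤ B.valuation (x₀ - r i) * 1 := by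
          exact mul_le_mul' le_rfl
            (Finset.prod_le_one' fun j hj => hle j (Finset.mem_of_mem_erase hj))
      _ < 1 := by rw [mul_one]; exact hlt
  rw [hv] at this
  exact lt_irrefl _ this

/-- If all roots of `p` are integral then `v (p.eval x₀) ≤ v (leadingCoeff p)` for integral `x₀`. -/
theorem valuation_eval_le_of_roots_mem [IsAlgClosed k] [DecidableEq k] (p : k[X])
    (hroots : ∀ r ∈ p.roots, r ∈ B) {x₀ : k} (hx₀ : x₀ ∈ B) :
    B.valuation (p.eval x₀) ≤ B.valuation p.leadingCoeff := by
  rw [(IsAlgClosed.splits p).eval_eq_prod_roots x₀, map_mul, Finset.prod_multiset_map_count,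
    map_prod]
  have h1 : ∏ r ∈ p.roots.toFinset, B.valuation ((x₀ - r) ^ p.roots.count r) ≤ 1 := by
    refine Finset.prod_le_one' fun r hr => ?_
    rw [map_pow]
    refine pow_le_one' ?_ _
    exact (B.valuation_le_one_iff _).mpr (B.sub_mem hx₀ (hroots r (Multiset.mem_toFinset.mp hr)))
  calc B.valuation p.leadingCoeff * ∏ r ∈ p.roots.toFinset, B.valuation ((x₀ - r) ^ p.roots.count r)
      ≤ B.valuation p.leadingCoeff * 1 := mul_le_mul' le_rfl h1
    _ = B.valuation p.leadingCoeff := mul_one _

/-- At a generic integral point, the valuation of a monic polynomial is the product of the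
valuations of its non-integral roots. -/
theorem exists_valuation_eval_eq [IsAlgClosed k] [DecidableEq k] (p : k[X]) (hm : p.Monic) :
    ∃ x₀ : k, x₀ ∈ B ∧ B.valuation (p.eval x₀) =
      ∏ r ∈ p.roots.toFinset, (max 1 (B.valuation r)) ^ p.roots.count r := by
  classical
  obtain ⟨x₀, hx₀, hgen⟩ := exists_generic B (p.roots.toFinset.filter (· ∈ B)) id
    (fun i hi => (Finset.mem_filter.mp hi).2)
  refine ⟨x₀, hx₀, ?_⟩
  rw [(IsAlgClosed.splits p).eval_eq_prod_roots_of_monic hm x₀, Finset.prod_multiset_map_count,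
    map_prod]
  refine Finset.prod_congr rfl fun r hr => ?_
  rw [map_pow]
  congr 1
  by_cases hrB : r ∈ B
  · have := hgen r (Finset.mem_filter.mpr ⟨hr, hrB⟩)
    rw [id] at this
    rw [this, max_eq_left ((B.valuation_le_one_iff _).mpr hrB)]
  · have hr1 : 1 < B.valuation r := by
      rw [← not_le, B.valuation_le_one_iff]; exact hrB
    have hx1 : B.valuation x₀ ≤ 1 := (B.valuation_le_one_iff _).mpr hx₀
    rw [max_eq_right hr1.le]
    exact Valuation.map_sub_eq_of_lt_right _ (lt_of_le_of_lt hx1 hr1)

end Fermat.Agent.S13.GenericEval
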