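import Fermat.Agent.Lib.EC.TorsionCard
import Fermat.Agent.Lib.EC.Reduction.KernelGeneral
import Fermat.Agent.S13.GenericEval

/-!
# P-S13 / WP-G2: the product formula for the `x`-coordinates of torsion points

`k` an algebraically closed field, `B` a valuation subring of `k`, `W` a Weierstrass curve with
`B`-integral coefficients and `W⁄k` elliptic, `n` odd with `(n : k) ≠ 0`.  Then for every finite
set `S` of nonzero `n`-torsion points

  `∏_{P ∈ S} max 1 (v (x P)) ≤ v(n)⁻²`   (`prod_max_valuation_xCoord_le`).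

Proof: let `f = N / D` be the rational function with `x (n • (x, y)) = f(x)` (function field
library `Lib/EC/FunctionField`, `Lib/EC/KernelCount`).  Then
* `deg N = deg D + 1`, `D` is monic, and the leading coefficient of `N` is `n⁻²` (formal group
  estimate at the place at infinity, `leadingCoeff_num`);
* the roots of `D` are the `x (P)`, `P ≠ 0` an `n`-torsion point, each of multiplicity `2`;
* for `e₀ ∈ B` the roots `s` of `N - e₀ D` are `x`-coordinates of points `Q` with
  `x (n • Q) = e₀` (`xCoord_zsmul_eq_eval`), so `Q` is not in the kernel of reduction and `s ∈ B`;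
  hence `v (N(x₀) - e₀ D(x₀)) ≤ v(n)⁻²` for integral `x₀`;
* subtracting the cases `e₀ = 0, 1` gives `v (D(x₀)) ≤ v(n)⁻²`, and for a generic integral `x₀`
  the left hand side is the product of the `v r` over the non-integral roots `r` of `D`.
-/

set_option autoImplicit false

open WeierstrassCurve WeierstrassCurve.Affine Polynomial

namespace Fermat.Agent.S13.ProductFormula

open Fermat.Agent.Lib.EC Fermat.Agent.Lib.EC.LocalOrder Fermat.Agent.Lib.EC.KernelCount
open Fermat.Agent.Lib.EC.Kernel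

section Aeval

variable {k K : Type*} [Field k] [Field K] [Algebra k K]
  (A : ValuationSubring K) (hk : ∀ c : k, algebraMap k K c ∈ A)

include hk in
/-- If `x ≡ x₀` modulo the nonunits then `p(x) ≡ p(x₀)`. -/
theorem aeval_sub_mem_nonunits {x : K} (hx : x ∈ A) {x₀ : k}
    (hx₀ : x - algebraMap k K x₀ ∈ A.nonunits) (q : k[X]) :
    aeval x q - algebraMap k K (q.eval x₀) ∈ A.nonunits := by
  have hdecomp : q = C (q.eval x₀) + (X - C x₀) * (q /ₘ (X - C x₀)) := by
    conv_lhs => rw [← modByMonic_add_div q (X - C x₀), modByMonic_X_sub_C_eq_C_eval]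
  have h1 : aeval x q - algebraMap k K (q.eval x₀) =
      (x - algebraMap k K x₀) * aeval x (q /ₘ (X - C x₀)) := by
    conv_lhs => rw [hdecomp]
    simp [aeval_C]
  rw [h1, A.mem_nonunits_iff, map_mul]
  have ha : A.valuation (x - algebraMap k K x₀) < 1 := (A.mem_nonunits_iff).1 hx₀
  have hb := Places.valuation_aeval_le_one A hk hx (q /ₘ (X - C x₀))
  calc A.valuation (x - algebraMap k K x₀) * A.valuation (aeval x (q /ₘ (X - C x₀)))
      ≤ A.valuation (x - algebraMap k K x₀) * 1 := by gcongr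
    _ < 1 := by rwa [mul_one]

end Aeval

section Value

variable {R : Type*} [CommRing R] {W : Affine R}
  {k K : Type*} [Field k] [Field K] [Algebra R k] [Algebra R K] [Algebra k K]
  [IsScalarTower R k K] [DecidableEq k] [DecidableEq K] [IsAlgClosed k] [(W⁄k).IsElliptic]
  (H : Places.IsOneVar k K)
  {m : ℤ} (hm : (m : k) ≠ 0) (e : RatFunc k →ₐ[k] K) {y : K}
  (hxy : (W⁄K).Nonsingular (e RatFunc.X) y)
  {f : RatFunc k} (hf : e f = xCoord _ (m • Point.some (e RatFunc.X) y hxy))

include H hm hf in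
/-- **Value formula**: if `(x, y)` is centred at the constant point `P₀ = (x₀, y₀)` at the place
`A` and `m • P₀ ≠ 0`, then the denominator of `f = x (m • (x, y))` does not vanish at `x₀` and
`x (m • P₀) = f(x₀)`. -/
theorem xCoord_zsmul_eq_eval (A : ValuationSubring K) (hk : ∀ c : k, algebraMap k K c ∈ A)
    {x₀ y₀ : k} (h₀ : (W⁄k).Nonsingular x₀ y₀)
    (hx₀ : e RatFunc.X - algebraMap k K x₀ ∈ A.nonunits)
    (hy₀ : y - algebraMap k K y₀ ∈ A.nonunits)
    (hne : m • Point.some x₀ y₀ h₀ ≠ 0) :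
    f.denom.eval x₀ ≠ 0 ∧
      xCoord _ (m • Point.some x₀ y₀ h₀) = f.num.eval x₀ / f.denom.eval x₀ := by
  have hf' : e f = xCoord _ (m • Point.some (e RatFunc.X) y hxy +
      (0 : (W⁄K).Point →+ (W⁄K).Point) (Point.some (e RatFunc.X) y hxy)) := by
    simpa using hf
  have hmult := (rootMultiplicity_denom (isInsep_zero W H) hm e hxy hf' A hk h₀ hx₀ hy₀).1
    (by simpa using hne)
  have hden : f.denom ≠ 0 := RatFunc.denom_ne_zero f
  have hD0 : f.denom.eval x₀ ≠ 0 := by
    intro h0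
    have : 0 < f.denom.rootMultiplicity x₀ := (rootMultiplicity_pos hden).mpr h0
    omega
  refine ⟨hD0, ?_⟩
  have hxne := x_ne_const e x₀ (K := K)
  have hA : A ≠ ⊤ := Places.ne_top_of_mem_nonunits hx₀ (sub_ne_zero.mpr hxne)
  have hxA : e RatFunc.X ∈ A := by
    have := A.add_mem _ _ (A.nonunits_subset hx₀) (hk x₀)
    simpa using this
  obtain ⟨hns, hsp⟩ := spec_some_of_sub_mem_nonunits W H A hk hA hxy hx₀ hy₀
  have hspQ : spec W H A hk hA (m • Point.some (e RatFunc.X) y hxy) =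
      m • Point.some x₀ y₀ h₀ := by
    rw [map_zsmul, hsp]
  -- the point `Q = m • (x, y)` is affine with integral coordinates
  have hQker : ¬ KerRed A (m • Point.some (e RatFunc.X) y hxy) := by
    rw [← spec_eq_zero_iff W H A hk hA, hspQ]
    exact hne
  rcases hQ : m • Point.some (e RatFunc.X) y hxy with _ | ⟨xQ, yQ, hQns⟩
  · rw [hQ] at hQker
    exact absurd (kerRed_zero A) hQker
  · rw [hQ] at hQker hspQ hf
    rw [kerRed_some, not_not] at hQker
    rw [xCoord_some] at hf
    obtain ⟨hyQ, hnsQ, hspQ'⟩ := spec_some_of_mem W H A hk hA hQns hQker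
    rw [hspQ'] at hspQ
    rw [← hspQ, xCoord_some]
    -- the residue of `xQ = e f`
    apply Places.resk_eq_of_sub_mem_nonunits
    change xQ - algebraMap k K (f.num.eval x₀ / f.denom.eval x₀) ∈ A.nonunits
    have hN := aeval_sub_mem_nonunits A hk hxA hx₀ f.num
    have hD := aeval_sub_mem_nonunits A hk hxA hx₀ f.denom
    have hDu : A.valuation (aeval (e RatFunc.X) f.denom) = 1 :=
      Places.valuation_aeval_eq_one A hk hxA hx₀ hD0
    have hDne : aeval (e RatFunc.X) f.denom ≠ 0 := by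
      intro h0
      rw [h0, map_zero] at hDu
      exact zero_ne_one hDu
    have hD0' : algebraMap k K (f.denom.eval x₀) ≠ 0 := by
      rw [Ne, map_eq_zero_iff _ (algebraMap k K).injective]; exact hD0
    have hxQ : xQ = aeval (e RatFunc.X) f.num / aeval (e RatFunc.X) f.denom := by
      rw [← hf, Places.algHom_eq_div]
    have key : xQ - algebraMap k K (f.num.eval x₀ / f.denom.eval x₀) =
        ((aeval (e RatFunc.X) f.num - algebraMap k K (f.num.eval x₀)) -
          algebraMap k K (f.num.eval x₀ / f.denom.eval x₀) *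
            (aeval (e RatFunc.X) f.denom - algebraMap k K (f.denom.eval x₀))) /
          aeval (e RatFunc.X) f.denom := by
      rw [hxQ, map_div₀]
      field_simp
      ring
    rw [key, A.mem_nonunits_iff, map_div₀, hDu, div_one]
    refine Valuation.map_sub_lt _ ((A.mem_nonunits_iff).mp hN) ?_
    rw [map_mul]
    calc A.valuation (algebraMap k K (f.num.eval x₀ / f.denom.eval x₀)) *
          A.valuation (aeval (e RatFunc.X) f.denom - algebraMap k K (f.denom.eval x₀))
        ≤ 1 * A.valuation (aeval (e RatFunc.X) f.denom - algebraMap k K (f.denom.eval x₀)) :=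
          mul_le_mul' ((A.valuation_le_one_iff _).mpr (hk _)) le_rfl
      _ < 1 := by rw [one_mul]; exact (A.mem_nonunits_iff).mp hD

end Value

section Fine

variable {K : Type*} [Field K] {Γ₀ : Type*} [LinearOrderedCommGroupWithZero Γ₀]
  (v : Valuation K Γ₀)

/-- `x z² = 1 + O(z)` for `z = -x/y` in the kernel of reduction. -/
theorem val_x_mul_z_sq_sub_one {a1 a2 a3 a4 a6 x y : K} (h1 : v a1 ≤ 1) (h2 : v a2 ≤ 1)
    (h3 : v a3 ≤ 1) (h4 : v a4 ≤ 1) (h6 : v a6 ≤ 1) (hx : 1 < v x)
    (h : y ^ 2 + a1 * x * y + a3 * y = x ^ 3 + a2 * x ^ 2 + a4 * x + a6) :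
    v (x * (-x / y) ^ 2 - 1) ≤ v (-x / y) := by
  have hy : y ≠ 0 := y_ne_zero v h1 h2 h3 h4 h6 hx h
  have hc1 : v (-x / y) < 1 := val_z_lt_one v h1 h2 h3 h4 h6 hx h
  have hw : v (-1 / y) = v (-x / y) ^ 3 := val_w v h1 h2 h3 h4 h6 hx h
  set z := -x / y with hz
  set w := -1 / y with hw'
  set c := v z with hc
  have hwc : v w ≤ c := by
    rw [hw]; exact pow_le_self hc1.le (by norm_num)
  have key : x * z ^ 2 - 1 = -(a1 * z) - a3 * w - a2 * z ^ 2 - a4 * (z * w) - a6 * w ^ 2 := by
    rw [hz, hw']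
    field_simp
    linear_combination (-1 : K) * h
  rw [key]
  have t1 : v (a1 * z) ≤ c := val_mul_le_of_le_one v h1 le_rfl
  have t2 : v (a3 * w) ≤ c := val_mul_le_of_le_one v h3 hwc
  have t3 : v (a2 * z ^ 2) ≤ c := by
    refine val_mul_le_of_le_one v h2 ?_
    rw [map_pow]; exact pow_le_self hc1.le (by norm_num)
  have t4 : v (a4 * (z * w)) ≤ c := by
    refine val_mul_le_of_le_one v h4 ?_
    rw [map_mul]
    calc v z * v w ≤ c * 1 := mul_le_mul' le_rfl (hwc.trans hc1.le)
      _ = c := mul_one c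
  have t5 : v (a6 * w ^ 2) ≤ c := by
    refine val_mul_le_of_le_one v h6 ?_
    rw [map_pow]
    calc v w ^ 2 ≤ c ^ 2 := pow_le_pow_left' hwc 2
      _ ≤ c := pow_le_self hc1.le (by norm_num)
  refine v.map_sub_le (v.map_sub_le (v.map_sub_le (v.map_sub_le ?_ t2) t3) t4) t5
  rw [Valuation.map_neg]; exact t1

/-- Point form. -/
theorem val_xCoord_mul_zc_sq_sub_one {W : Affine K} (hW : IsIntegralAt v W) {P : W.Point}
    (hP : Near v P) (hP0 : P ≠ 0) :
    v (xCoord W P * zc P ^ 2 - 1) ≤ v (zc P) := by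
  obtain ⟨g1, g2, g3, g4, g6⟩ := hW
  rcases P with _ | ⟨x, y, h⟩
  · exact absurd Point.zero_def.symm hP0
  · rw [zc_some, xCoord_some]
    exact val_x_mul_z_sq_sub_one v g1 g2 g3 g4 g6 hP ((equation_iff x y).mp h.left)

variable [DecidableEq K]

/-- **Leading term of multiplication by `m` at infinity**: for `P ≠ 0` in the kernel of reduction
and `v m = 1`, `x (m • P) = m⁻² x (P) + (smaller)`. -/
theorem val_xCoord_zsmul_sub {W : Affine K} (hW : IsIntegralAt v W) {P : W.Point}
    (hP : Near v P) (hP0 : P ≠ 0) {m : ℤ} (hm : v (m : K) = 1) :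
    v (xCoord W (m • P) - ((m : K)⁻¹) ^ 2 * xCoord W P) < v (xCoord W P) := by
  have hm0 : (m : K) ≠ 0 := by
    intro h0; rw [h0, map_zero] at hm; exact zero_ne_one hm
  obtain ⟨n1, n2⟩ := zsmul_estimate v hW hP m
  obtain ⟨hQn, hQ0, hzQ⟩ := zsmul_add_zsmul_estimate v hW hP hP0 (near_zero v (W := W))
    (by simp) hm 0
  rw [zero_smul, add_zero] at hQn hQ0 hzQ
  set Q := m • P with hQ
  set z := zc P with hz
  set zQ := zc Q with hzQ'
  set c := v z with hc
  have hc1 : c < 1 := val_zc_lt_one v hW hP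
  have hc0 : c ≠ 0 := val_zc_ne_zero v hW hP hP0
  have hcpos : 0 < c := zero_lt_iff.mpr hc0
  have hα := val_xCoord_mul_zc_sq_sub_one v hW hQn hQ0
  have hβ := val_xCoord_mul_zc_sq_sub_one v hW hP hP0
  rw [← hzQ', hzQ] at hα
  rw [← hz, ← hc] at hβ
  set xQ := xCoord W Q with hxQ
  set x := xCoord W P with hx
  set α := xQ * zQ ^ 2 - 1 with hαd
  set β := x * z ^ 2 - 1 with hβd
  -- the key identity
  have key : (m : K) ^ 2 * z ^ 2 * zQ ^ 2 * (xQ - ((m : K)⁻¹) ^ 2 * x) =
      (((m : K) * z) ^ 2 - zQ ^ 2) + ((m : K) * z) ^ 2 * α - zQ ^ 2 * β := by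
    rw [hαd, hβd]
    field_simp
    ring
  have hmz : v ((m : K) * z) = c := by rw [map_mul, hm, one_mul]
  have e1 : v (((m : K) * z) ^ 2 - zQ ^ 2) ≤ c ^ 3 := by
    have : ((m : K) * z) ^ 2 - zQ ^ 2 = -((zQ - (m : K) * z) * (zQ + (m : K) * z)) := by ring
    rw [this, Valuation.map_neg, map_mul]
    have h2 : v (zQ + (m : K) * z) ≤ c := v.map_add_le hzQ.le hmz.le
    calc v (zQ - (m : K) * z) * v (zQ + (m : K) * z) ≤ c ^ 2 * c := mul_le_mul' n2 h2
      _ = c ^ 3 := (pow_succ c 2).symm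
  have e2 : v (((m : K) * z) ^ 2 * α) ≤ c ^ 3 := by
    rw [map_mul, map_pow, hmz]
    calc c ^ 2 * v α ≤ c ^ 2 * c := mul_le_mul' le_rfl hα
      _ = c ^ 3 := (pow_succ c 2).symm
  have e3 : v (zQ ^ 2 * β) ≤ c ^ 3 := by
    rw [map_mul, map_pow, hzQ]
    calc c ^ 2 * v β ≤ c ^ 2 * c := mul_le_mul' le_rfl hβ
      _ = c ^ 3 := (pow_succ c 2).symm
  have hle : v ((m : K) ^ 2 * z ^ 2 * zQ ^ 2 * (xQ - ((m : K)⁻¹) ^ 2 * x)) ≤ c ^ 3 := by
    rw [key]
    exact v.map_sub_le (v.map_add_le e1 e2) e3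
  rw [map_mul, map_mul, map_mul, map_pow, map_pow, map_pow, hm, one_pow, one_mul, ← hc, hzQ]
    at hle
  -- `v x = c⁻²`
  have hxc : c ^ 2 * v x = 1 := val_zc_sq_mul v hW hP hP0
  have hd : c ^ 2 * c ^ 2 * v (xQ - ((m : K)⁻¹) ^ 2 * x) < c ^ 2 * c ^ 2 * v x := by
    refine lt_of_le_of_lt hle ?_
    rw [mul_assoc, hxc, mul_one]
    calc c ^ 3 = c ^ 2 * c := pow_succ c 2
      _ < c ^ 2 * 1 := mul_lt_mul_of_pos_left hc1 (pow_pos hcpos 2)
      _ = c ^ 2 := mul_one _
  exact lt_of_mul_lt_mul_left' hd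

end Fine

section Leading

variable {R : Type*} [CommRing R] {W : Affine R}
  {k K : Type*} [Field k] [Field K] [Algebra R k] [Algebra R K] [Algebra k K]
  [IsScalarTower R k K] [DecidableEq k] [DecidableEq K] [IsAlgClosed k] [(W⁄k).IsElliptic]
  (H : Places.IsOneVar k K)
  {m : ℤ} (hm : (m : k) ≠ 0) (e : RatFunc k →ₐ[k] K) {y : K}
  (hxy : (W⁄K).Nonsingular (e RatFunc.X) y)
  {f : RatFunc k} (hf : e f = xCoord _ (m • Point.some (e RatFunc.X) y hxy))

include H hm hf in
theorem natDegree_num_eq : f.num.natDegree = f.denom.natDegree + 1 := by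
  have hf' : e f = xCoord _ (m • Point.some (e RatFunc.X) y hxy +
      (0 : (W⁄K).Point →+ (W⁄K).Point) (Point.some (e RatFunc.X) y hxy)) := by
    simpa using hf
  obtain ⟨-, hdeg⟩ := generic_ne_zero_and_intDegree (isInsep_zero W H) hm e hxy
  obtain ⟨-, hdeg1⟩ := hdeg f hf'
  rw [RatFunc.intDegree] at hdeg1
  omega

include H hm hf in
/-- **Leading coefficient**: the numerator of `x (m • (x, y))` has leading coefficient `m⁻²`. -/
theorem leadingCoeff_num : f.num.leadingCoeff = ((m : k)⁻¹) ^ 2 := by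
  obtain ⟨A, hk, hxA⟩ := Places.exists_valuationSubring_notMem (x_notMem_range e (K := K))
  have hW := (isIntegralOver_baseChange W A hk).isIntegralAt
  have hv : 1 < A.valuation (e RatFunc.X) := by
    rw [← not_le, A.valuation_le_one_iff]; exact hxA
  have hP : Near A.valuation (Point.some (e RatFunc.X) y hxy) := hv
  have hmv : A.valuation ((m : ℤ) : K) = 1 := valuation_intCast_eq_one A hk hm
  have hlt := val_xCoord_zsmul_sub A.valuation hW hP (Point.some_ne_zero hxy) hmv
  rw [← hf, xCoord_some] at hlt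
  have hdeg := natDegree_num_eq H hm e hxy hf
  have hden : f.denom ≠ 0 := RatFunc.denom_ne_zero f
  set x := e RatFunc.X with hx
  set c : k := ((m : k)⁻¹) ^ 2 with hc
  have hcK : algebraMap k K c = ((m : K)⁻¹) ^ 2 := by
    rw [hc, map_pow, map_inv₀, map_intCast]
  set g : k[X] := f.num - C c * (X * f.denom) with hg
  have hDv : A.valuation (aeval x f.denom) = A.valuation x ^ f.denom.natDegree :=
    Places.valuation_aeval_eq_pow_natDegree A hk hxA hden
  have hDne : aeval x f.denom ≠ 0 := by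
    intro h0
    rw [h0, map_zero] at hDv
    exact (pow_ne_zero _ (lt_trans zero_lt_one hv).ne') hDv.symm
  have hgx : aeval x g = aeval x f.denom * (e f - ((m : K)⁻¹) ^ 2 * x) := by
    rw [hg, map_sub, map_mul, map_mul, aeval_C, aeval_X, hcK, Places.algHom_eq_div, ← hx]
    field_simp
  have hgv : A.valuation (aeval x g) < A.valuation x ^ (f.denom.natDegree + 1) := by
    rw [hgx, map_mul, hDv, pow_succ (A.valuation x) f.denom.natDegree]
    exact mul_lt_mul_of_pos_left hlt (pow_pos (lt_trans zero_lt_one hv) _)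
  have hcoeff : g.coeff (f.denom.natDegree + 1) = 0 := by
    by_cases hg0 : g = 0
    · rw [hg0, coeff_zero]
    · rw [Places.valuation_aeval_eq_pow_natDegree A hk hxA hg0] at hgv
      have : g.natDegree < f.denom.natDegree + 1 := (pow_lt_pow_iff_right₀ hv).mp hgv
      exact coeff_eq_zero_of_natDegree_lt this
  rw [hg, coeff_sub, coeff_C_mul, coeff_X_mul, ← hdeg] at hcoeff
  have hmonic : f.denom.coeff f.denom.natDegree = 1 := RatFunc.monic_denom f
  rw [show f.num.coeff f.num.natDegree = f.num.leadingCoeff from rfl, hmonic, mul_one] at hcoeff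
  exact sub_eq_zero.mp hcoeff

end Leading

section Points

variable {k : Type*} [Field k] {W' : Affine k}

theorem eq_or_eq_neg_of_xCoord_eq {P Q : W'.Point} (hP : P ≠ 0) (hQ : Q ≠ 0)
    (h : xCoord W' P = xCoord W' Q) : P = Q ∨ P = -Q := by
  rcases P with _ | ⟨x₁, y₁, h₁⟩
  · exact absurd Point.zero_def.symm hP
  rcases Q with _ | ⟨x₂, y₂, h₂⟩
  · exact absurd Point.zero_def.symm hQ
  rw [xCoord_some, xCoord_some] at h
  subst h
  rcases Y_eq_of_X_eq h₁.1 h₂.1 rfl with hy | hy
  · left; subst hy; rfl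
  · right
    rw [Point.neg_some]
    subst hy; rfl

/-- A point of odd order is not `2`-torsion. -/
theorem ne_negY_of_odd_nsmul [DecidableEq k] {n : ℕ} (hodd : Odd n) {x₀ y₀ : k}
    (h₀ : W'.Nonsingular x₀ y₀) (hn : n • Point.some x₀ y₀ h₀ = 0) : y₀ ≠ W'.negY x₀ y₀ := by
  intro hy
  have hneg : -Point.some x₀ y₀ h₀ = Point.some x₀ y₀ h₀ := by
    rw [Point.neg_some]
    exact some_congr _ rfl hy.symm _
  have h2 : 2 • Point.some x₀ y₀ h₀ = 0 := by
    rw [two_nsmul]
    nth_rewrite 1 [← hneg]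
    exact neg_add_cancel _
  obtain ⟨j, rfl⟩ := hodd
  rw [add_nsmul, mul_comm, mul_nsmul', h2, nsmul_zero, zero_add, one_nsmul] at hn
  exact Point.some_ne_zero h₀ hn

end Points

section Gauss

variable {R : Type*} [CommRing R] {W : Affine R}
  {k K : Type*} [Field k] [Field K] [Algebra R k] [Algebra R K] [Algebra k K]
  [IsScalarTower R k K] [DecidableEq k] [DecidableEq K] [IsAlgClosed k] [(W⁄k).IsElliptic]
  (H : Places.IsOneVar k K)
  {m : ℤ} (hm : (m : k) ≠ 0) (e : RatFunc k →ₐ[k] K) {y : K}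
  (hxy : (W⁄K).Nonsingular (e RatFunc.X) y)
  (hcentre : ∀ x₀ y₀ : k, (W⁄k).Nonsingular x₀ y₀ → ∃ A : ValuationSubring K,
      (∀ c : k, algebraMap k K c ∈ A) ∧ e RatFunc.X - algebraMap k K x₀ ∈ A.nonunits ∧
        y - algebraMap k K y₀ ∈ A.nonunits)
  {f : RatFunc k} (hf : e f = xCoord _ (m • Point.some (e RatFunc.X) y hxy))

include H hm hcentre hf in
/-- The multiplicity of `x₀` as a root of the denominator of `x (m • (x, y))`. -/
theorem rootMultiplicity_denom_zsmul {x₀ y₀ : k} (h₀ : (W⁄k).Nonsingular x₀ y₀) :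
    (m • Point.some x₀ y₀ h₀ ≠ 0 → f.denom.rootMultiplicity x₀ = 0) ∧
    (m • Point.some x₀ y₀ h₀ = 0 →
      f.denom.rootMultiplicity x₀ = if y₀ = (W⁄k).negY x₀ y₀ then 1 else 2) := by
  have hf' : e f = xCoord _ (m • Point.some (e RatFunc.X) y hxy +
      (0 : (W⁄K).Point →+ (W⁄K).Point) (Point.some (e RatFunc.X) y hxy)) := by
    simpa using hf
  obtain ⟨A, hk, hx₀, hy₀⟩ := hcentre x₀ y₀ h₀
  have := rootMultiplicity_denom (isInsep_zero W H) hm e hxy hf' A hk h₀ hx₀ hy₀
  simpa using this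

include H hm hcentre hf in
/-- The roots of `num - e₀ denom` are the `x`-coordinates of the points `Q` with
`x (m • Q) = e₀`. -/
theorem exists_point_of_root {e₀ s : k} (hs : (f.num - C e₀ * f.denom).IsRoot s) :
    ∃ (y₀ : k) (h₀ : (W⁄k).Nonsingular s y₀), m • Point.some s y₀ h₀ ≠ 0 ∧
      xCoord _ (m • Point.some s y₀ h₀) = e₀ := by
  obtain ⟨y₀, hy₀⟩ := exists_equation (W⁄k).toAffine s
  have h₀ : (W⁄k).Nonsingular s y₀ := (equation_iff_nonsingular).mp hy₀
  have hroot : f.num.eval s = e₀ * f.denom.eval s := by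
    have : (f.num - C e₀ * f.denom).eval s = 0 := hs
    rw [eval_sub, eval_mul, eval_C] at this
    exact sub_eq_zero.mp this
  have hD0 : f.denom.eval s ≠ 0 := by
    intro h0
    have hN0 : f.num.eval s = 0 := by rw [hroot, h0, mul_zero]
    obtain ⟨a, b, hab⟩ := RatFunc.isCoprime_num_denom f
    have := congrArg (eval s) hab
    rw [eval_add, eval_mul, eval_mul, hN0, h0, mul_zero, mul_zero, add_zero, eval_one] at this
    exact zero_ne_one this
  have hden : f.denom ≠ 0 := RatFunc.denom_ne_zero f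
  have hmult := rootMultiplicity_denom_zsmul H hm e hxy hcentre hf h₀
  have hne : m • Point.some s y₀ h₀ ≠ 0 := by
    intro h0
    have h1 := hmult.2 h0
    have h2 : f.denom.rootMultiplicity s = 0 := rootMultiplicity_eq_zero hD0
    rw [h2] at h1
    split_ifs at h1
  refine ⟨y₀, h₀, hne, ?_⟩
  obtain ⟨A, hk, hx₀, hy₀'⟩ := hcentre s y₀ h₀
  obtain ⟨-, hval⟩ := xCoord_zsmul_eq_eval H hm e hxy hf A hk h₀ hx₀ hy₀' hne
  rw [hval, hroot, mul_div_assoc, div_self hD0, mul_one]

variable (B : ValuationSubring k) (hB : IsIntegralOver B (W⁄k).toAffine)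

include H hm hcentre hf hB in
/-- The roots of `num - e₀ denom` are integral when `e₀` is. -/
theorem root_mem {e₀ s : k} (he₀ : e₀ ∈ B) (hs : (f.num - C e₀ * f.denom).IsRoot s) :
    s ∈ B := by
  obtain ⟨y₀, h₀, hne, hx⟩ := exists_point_of_root H hm e hxy hcentre hf hs
  by_contra hsB
  have hker : KerRed B (Point.some s y₀ h₀) := (kerRed_some B h₀).mpr hsB
  have hker' : KerRed B (m • Point.some s y₀ h₀) := by
    have := (kerRedSubgroup hB).zsmul_mem ((mem_kerRedSubgroup hB _).mpr hker) m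
    exact (mem_kerRedSubgroup hB _).mp this
  rcases hQ : m • Point.some s y₀ h₀ with _ | ⟨xQ, yQ, hQns⟩
  · exact hne hQ
  · rw [hQ] at hker' hx
    rw [kerRed_some] at hker'
    rw [xCoord_some] at hx
    exact hker' (hx ▸ he₀)

include H hm hcentre hf hB in
/-- Gauss-norm bound: `v (num(x₀) - e₀ denom(x₀)) ≤ v (m)⁻²` for integral `x₀`, `e₀`. -/
theorem valuation_eval_num_sub_le {e₀ x₀ : k} (he₀ : e₀ ∈ B) (hx₀ : x₀ ∈ B) :
    B.valuation (f.num.eval x₀ - e₀ * f.denom.eval x₀) ≤ ((B.valuation (m : k))⁻¹) ^ 2 := by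
  have hdeg := natDegree_num_eq H hm e hxy hf
  have hlead := leadingCoeff_num H hm e hxy hf
  have hlt : (C e₀ * f.denom).degree < f.num.degree := by
    have hnum : f.num ≠ 0 := by
      intro h0
      rw [h0, natDegree_zero] at hdeg
      omega
    rw [degree_eq_natDegree hnum]
    refine lt_of_le_of_lt degree_le_natDegree ?_
    have := natDegree_C_mul_le e₀ f.denom
    rw [hdeg]
    exact_mod_cast Nat.lt_succ_of_le this
  have hl : (f.num - C e₀ * f.denom).leadingCoeff = ((m : k)⁻¹) ^ 2 := by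
    rw [leadingCoeff_sub_of_degree_lt hlt, hlead]
  have := GenericEval.valuation_eval_le_of_roots_mem B (f.num - C e₀ * f.denom)
    (fun r hr => root_mem H hm e hxy hcentre hf B hB he₀ (isRoot_of_mem_roots hr)) hx₀
  rw [hl, eval_sub, eval_mul, eval_C, map_pow, map_inv₀] at this
  exact this

include H hm hcentre hf hB in
/-- **Product formula, root form.** -/
theorem prod_roots_denom_le :
    ∏ r ∈ f.denom.roots.toFinset, (max 1 (B.valuation r)) ^ f.denom.roots.count r ≤
      ((B.valuation (m : k))⁻¹) ^ 2 := by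
  obtain ⟨x₀, hx₀, hval⟩ := GenericEval.exists_valuation_eval_eq B f.denom (RatFunc.monic_denom f)
  rw [← hval]
  have h0 := valuation_eval_num_sub_le H hm e hxy hcentre hf B hB B.zero_mem hx₀
  have h1 := valuation_eval_num_sub_le H hm e hxy hcentre hf B hB B.one_mem hx₀
  have : f.denom.eval x₀ = (f.num.eval x₀ - 0 * f.denom.eval x₀) -
      (f.num.eval x₀ - 1 * f.denom.eval x₀) := by ring
  rw [this]
  exact Valuation.map_sub_le _ h0 h1

end Gauss

section Final

variable {R : Type*} [CommRing R] {W : Affine R}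
  {k K : Type*} [Field k] [Field K] [Algebra R k] [Algebra R K] [Algebra k K]
  [IsScalarTower R k K] [DecidableEq k] [DecidableEq K] [IsAlgClosed k] [(W⁄k).IsElliptic]
  (H : Places.IsOneVar k K)
  (e : RatFunc k →ₐ[k] K) {y : K}
  (hxy : (W⁄K).Nonsingular (e RatFunc.X) y)
  (hcentre : ∀ x₀ y₀ : k, (W⁄k).Nonsingular x₀ y₀ → ∃ A : ValuationSubring K,
      (∀ c : k, algebraMap k K c ∈ A) ∧ e RatFunc.X - algebraMap k K x₀ ∈ A.nonunits ∧
        y - algebraMap k K y₀ ∈ A.nonunits)
  (B : ValuationSubring k) (hB : IsIntegralOver B (W⁄k).toAffine)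

include H hcentre hB in
/-- **Product formula, abstract form.** -/
theorem prod_max_valuation_le_abstract {n : ℕ} (hodd : Odd n) (hn : (n : k) ≠ 0)
    {f : RatFunc k} (hf : e f = xCoord _ ((n : ℤ) • Point.some (e RatFunc.X) y hxy))
    (S : Finset (W⁄k).toAffine.Point) (hS : ∀ P ∈ S, P ≠ 0 ∧ n • P = 0) :
    ∏ P ∈ S, max 1 (B.valuation (xCoord (W⁄k).toAffine P)) ≤
      ((B.valuation (n : k))⁻¹) ^ 2 := by
  classical
  have hm : (((n : ℤ) : ℤ) : k) ≠ 0 := by exact_mod_cast hn
  have hden : f.denom ≠ 0 := RatFunc.denom_ne_zero f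
  have hmult := fun {x₀ y₀ : k} (h₀ : (W⁄k).Nonsingular x₀ y₀) =>
    rootMultiplicity_denom_zsmul H hm e hxy hcentre hf h₀
  -- every root of the denominator has multiplicity `2`
  have hcount : ∀ r ∈ f.denom.roots.toFinset, f.denom.roots.count r = 2 := by
    intro r hr
    rw [count_roots]
    have hr' : f.denom.rootMultiplicity r ≠ 0 := (mem_roots_toFinset_iff hden r).mp hr
    obtain ⟨y₀, hy₀⟩ := exists_equation (W⁄k).toAffine r
    have h₀ : (W⁄k).Nonsingular r y₀ := (equation_iff_nonsingular).mp hy₀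
    by_cases h0 : (n : ℤ) • Point.some r y₀ h₀ = 0
    · rw [(hmult h₀).2 h0]
      rw [natCast_zsmul] at h0
      rw [if_neg (ne_negY_of_odd_nsmul hodd h₀ h0)]
    · exact absurd ((hmult h₀).1 h0) hr'
  -- the `x`-coordinates of the points of `S` are roots of the denominator
  have hmem : ∀ P ∈ S, xCoord (W⁄k).toAffine P ∈ f.denom.roots.toFinset := by
    intro P hP
    obtain ⟨hP0, hnP⟩ := hS P hP
    rcases P with _ | ⟨x₀, y₀, h₀⟩
    · exact absurd Point.zero_def.symm hP0
    · rw [xCoord_some, mem_roots_toFinset_iff hden]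
      have h0 : (n : ℤ) • Point.some x₀ y₀ h₀ = 0 := by rw [natCast_zsmul]; exact hnP
      rw [(hmult h₀).2 h0]
      split_ifs <;> norm_num
  set g : k → B.ValueGroup := fun r => max 1 (B.valuation r) with hg
  have hg1 : ∀ r, 1 ≤ g r := fun r => le_max_left _ _
  -- the fibres of `P ↦ x(P)` have at most two elements
  have hfib : ∀ r ∈ S.image (xCoord (W⁄k).toAffine),
      (S.filter fun P => xCoord (W⁄k).toAffine P = r).card ≤ 2 := by
    intro r hr
    obtain ⟨P₁, hP₁, rfl⟩ := Finset.mem_image.mp hr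
    refine le_trans (Finset.card_le_card ?_) (Finset.card_le_two (a := P₁) (b := -P₁))
    intro P hP
    rw [Finset.mem_filter] at hP
    rw [Finset.mem_insert, Finset.mem_singleton]
    exact eq_or_eq_neg_of_xCoord_eq (hS P hP.1).1 (hS P₁ hP₁).1 hP.2
  calc ∏ P ∈ S, max 1 (B.valuation (xCoord (W⁄k).toAffine P))
      = ∏ P ∈ S, g (xCoord (W⁄k).toAffine P) := rfl
    _ = ∏ r ∈ S.image (xCoord (W⁄k).toAffine),
          g r ^ (S.filter fun P => xCoord (W⁄k).toAffine P = r).card := Finset.prod_comp g _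
    _ ≤ ∏ r ∈ S.image (xCoord (W⁄k).toAffine), g r ^ 2 :=
        Finset.prod_le_prod' fun r hr => pow_le_pow_right' (hg1 r) (hfib r hr)
    _ ≤ ∏ r ∈ f.denom.roots.toFinset, g r ^ 2 := by
        refine Finset.prod_le_prod_of_subset_of_one_le' ?_ fun r _ _ => one_le_pow_of_one_le' (hg1 r) 2
        intro r hr
        obtain ⟨P, hP, rfl⟩ := Finset.mem_image.mp hr
        exact hmem P hP
    _ = ∏ r ∈ f.denom.roots.toFinset, g r ^ f.denom.roots.count r :=
        Finset.prod_congr rfl fun r hr => by rw [hcount r hr]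
    _ ≤ ((B.valuation (n : k))⁻¹) ^ 2 := by
        have := prod_roots_denom_le H hm e hxy hcentre hf B hB
        rwa [Int.cast_natCast] at this

end Final

section Concrete

open Fermat.Agent.Lib.EC.FunctionField

variable {F : Type*} [Field F] (W : WeierstrassCurve F) (k : Type*) [Field k] [Algebra F k]
  [IsAlgClosed k] [DecidableEq k] [(W⁄k).IsElliptic]

/-- **Product formula (G2).**  `k` algebraically closed, `B` a valuation subring of `k`, `W` a
Weierstrass curve with `W⁄k` elliptic and with `B`-integral coefficients, `n` odd and nonzero in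
`k`.  For every finite set `S` of nonzero `n`-torsion points,
`∏_{P ∈ S} max 1 (v (x P)) ≤ v(n)⁻²`. -/
theorem prod_max_valuation_xCoord_le (B : ValuationSubring k)
    (hB : IsIntegralOver B (W⁄k).toAffine) {n : ℕ} (hodd : Odd n) (hn : (n : k) ≠ 0)
    (S : Finset (W⁄k).toAffine.Point) (hS : ∀ P ∈ S, P ≠ 0 ∧ n • P = 0) :
    ∏ P ∈ S, max 1 (B.valuation (LocalOrder.xCoord (W⁄k).toAffine P)) ≤
      ((B.valuation (n : k))⁻¹) ^ 2 := by
  classical
  have hW := not_two_a₁_a₃_of_Δ_ne_zero W k (W⁄k).isUnit_Δ.ne_zero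
  have hQ : (n : ℤ) • genericPoint W k ∈ oddPoints W k :=
    (oddPoints W k).zsmul_mem (genericPoint_mem_oddPoints W k) (n : ℤ)
  refine prod_max_valuation_le_abstract (R := F) (W := W) (isOneVar W k) (ratEmb W k)
    (nonsingular_ratEmb_X W k) (exists_centre W k) B hB hodd hn
    (f := xT W k ((n : ℤ) • genericPoint W k)) ?_ S hS
  rw [some_ratEmb_X_eq, localOrder_xCoord_eq]
  exact ratEmb_xT W k hW hQ

end Concrete

end Fermat.Agent.S13.ProductFormula
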