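/-
helper2.  P-S13, WP-Lp: **(Up)** unconditionally, from the landed product formula (WP-G2,
`Fermat.Agent.S13.ProductFormula.prod_max_valuation_xCoord_le`).
-/
import Fermat.Agent.S13.LocalPFinal
import Fermat.Agent.S13.ProductFormula

set_option autoImplicit false

namespace Fermat.Agent.S13.LocalP

theorem g2Statement : G2Statement := fun W _ B hB _ hodd hn S hS =>
  Fermat.Agent.S13.ProductFormula.prod_max_valuation_xCoord_le W Qbar B hB hodd hn S hS

/-- **(Up)**: inertia at `p` acts trivially on a Galois stable line of `E[p]` or on the
quotient. -/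
theorem localP (P : FreyPackage) : Fermat.Agent.S13.LocalP P :=
  localP_of_G2 g2Statement P

end Fermat.Agent.S13.LocalP
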