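/-
P-S13, WP-LM (abstract part): consequences of the component calculus on a Weierstrass curve with
multiplicative reduction, formulated for an abstract "component system":
a group `Pt` of points, a value group `Γ`, an element `0 < β < 1`, a relation `Comp P g`
("`P` has component value `g`", well defined modulo `β ^ (2ℤ)`), and the valuation `vx P` of the
`x`-coordinate.

* `CompSystem.sub_mem_E0` (LM1): an additive automorphism preserving `Comp` moves every point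
  inside the identity component;
* `CompSystem.vx_pow_torsion`, `CompSystem.prod_vx_pow` (LM4): for a point `P` of odd prime order
  `p` off the identity component, `vx (j • P) ^ p = β ^ (2 |jk mod p|)` and
  `∏_{j ≤ (p-1)/2} vx (j • P) ^ p = β ^ ((p² - 1)/4)`.
-/
import Mathlib

set_option autoImplicit false

namespace Fermat.Agent.S13

/-- An abstract component calculus (the API of `S13/Nodal`, modelled on `S05/Component`). -/
structure CompSystem (Pt : Type*) [AddCommGroup Pt] (Γ : Type*)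
    [LinearOrderedCommGroupWithZero Γ] where
  /-- `β = v(a₄)`. -/
  β : Γ
  β_pos : 0 < β
  β_lt_one : β < 1
  /-- `Comp P g`: the point `P` has component value `g`. -/
  Comp : Pt → Γ → Prop
  /-- the valuation of the `x`-coordinate (junk value at the origin). -/
  vx : Pt → Γ
  comp_zero : ∀ g, Comp 0 g ↔ g = 1
  comp_total : ∀ P, ∃ g, Comp P g
  comp_unique : ∀ P g g', Comp P g → Comp P g' → g = g'
  comp_range : ∀ P g, Comp P g →
    g = 1 ∨ g = β ∨ (β < g ∧ g < 1 ∧ vx P = g) ∨ (1 < g ∧ g < β⁻¹ ∧ vx P = g⁻¹)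
  comp_neg : ∀ P g, Comp P g → ∃ m : ℤ, Comp (-P) (g⁻¹ * β ^ (2 * m))
  comp_add : ∀ P Q g g', Comp P g → Comp Q g' → ∃ m : ℤ, Comp (P + Q) (g * g' * β ^ (2 * m))

namespace CompSystem

variable {Pt : Type*} [AddCommGroup Pt] {Γ : Type*} [LinearOrderedCommGroupWithZero Γ]
  (S : CompSystem Pt Γ)

theorem β_ne_zero : S.β ≠ 0 := S.β_pos.ne'

/-- the identity component. -/
def E0 (P : Pt) : Prop := S.Comp P 1

theorem comp_ne_zero {P : Pt} {g : Γ} (h : S.Comp P g) : g ≠ 0 := by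
  rcases S.comp_range P g h with rfl | rfl | ⟨h1, -, -⟩ | ⟨h1, -, -⟩
  · exact one_ne_zero
  · exact S.β_ne_zero
  · exact (lt_trans S.β_pos h1).ne'
  · exact (lt_trans zero_lt_one h1).ne'

theorem β_le_of_comp {P : Pt} {g : Γ} (h : S.Comp P g) : S.β ≤ g := by
  rcases S.comp_range P g h with rfl | rfl | ⟨h1, -, -⟩ | ⟨h1, -, -⟩
  · exact S.β_lt_one.le
  · exact le_rfl
  · exact h1.le
  · exact (lt_trans S.β_lt_one h1).le

theorem one_lt_β_inv : 1 < S.β⁻¹ := by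
  rw [one_lt_inv₀ S.β_pos]
  exact S.β_lt_one

theorem lt_β_inv_of_comp {P : Pt} {g : Γ} (h : S.Comp P g) : g < S.β⁻¹ := by
  rcases S.comp_range P g h with rfl | rfl | ⟨-, h1, -⟩ | ⟨-, h1, -⟩
  · exact S.one_lt_β_inv
  · exact lt_trans S.β_lt_one S.one_lt_β_inv
  · exact lt_trans h1 S.one_lt_β_inv
  · exact h1

/-- strict monotonicity of `n ↦ β ^ n` (decreasing). -/
theorem β_zpow_lt_iff {m n : ℤ} : S.β ^ m < S.β ^ n ↔ n < m :=
  zpow_lt_zpow_iff_right_of_lt_one₀ S.β_pos S.β_lt_one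

theorem β_zpow_le_iff {m n : ℤ} : S.β ^ m ≤ S.β ^ n ↔ n ≤ m :=
  zpow_le_zpow_iff_right_of_lt_one₀ S.β_pos S.β_lt_one

theorem β_zpow_injective {m n : ℤ} (h : S.β ^ m = S.β ^ n) : m = n := by
  apply le_antisymm
  · exact (S.β_zpow_le_iff).1 h.ge
  · exact (S.β_zpow_le_iff).1 h.le

/-- A component value which is an even power of `β` is `1`. -/
theorem eq_one_of_comp_zpow {P : Pt} {M : ℤ} (h : S.Comp P (S.β ^ (2 * M))) :
    S.β ^ (2 * M) = 1 := by
  have h1 : S.β ^ (1 : ℤ) ≤ S.β ^ (2 * M) := by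
    rw [zpow_one]; exact S.β_le_of_comp h
  have h2 : S.β ^ (2 * M) < S.β ^ (-1 : ℤ) := by
    rw [zpow_neg, zpow_one]; exact S.lt_β_inv_of_comp h
  rw [S.β_zpow_le_iff] at h1
  rw [S.β_zpow_lt_iff] at h2
  have : M = 0 := by omega
  rw [this, mul_zero, zpow_zero]

/-- **(LM1)**: an additive map preserving component values moves points within `E₀`. -/
theorem sub_mem_E0 (σ : Pt →+ Pt) (hσ : ∀ P g, S.Comp P g → S.Comp (σ P) g) (P : Pt) :
    S.E0 (σ P - P) := by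
  obtain ⟨g, hg⟩ := S.comp_total P
  have hg0 := S.comp_ne_zero hg
  obtain ⟨m, hm⟩ := S.comp_neg P g hg
  obtain ⟨m', hm'⟩ := S.comp_add (σ P) (-P) g _ (hσ P g hg) hm
  have hval : g * (g⁻¹ * S.β ^ (2 * m)) * S.β ^ (2 * m') = S.β ^ (2 * (m + m')) := by
    rw [← mul_assoc, mul_inv_cancel₀ hg0, one_mul, ← zpow_add₀ S.β_ne_zero, mul_add]
  rw [hval, ← sub_eq_add_neg] at hm'
  have := S.eq_one_of_comp_zpow hm'
  rw [this] at hm'
  exact hm'

theorem comp_nsmul {P : Pt} {g : Γ} (h : S.Comp P g) (n : ℕ) :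
    ∃ m : ℤ, S.Comp (n • P) (g ^ n * S.β ^ (2 * m)) := by
  induction n with
  | zero => exact ⟨0, by simp [S.comp_zero]⟩
  | succ n ih =>
    obtain ⟨m, hm⟩ := ih
    obtain ⟨m', hm'⟩ := S.comp_add _ _ _ _ hm h
    refine ⟨m + m', ?_⟩
    rw [succ_nsmul]
    convert hm' using 1
    rw [pow_succ, mul_add, zpow_add₀ S.β_ne_zero]
    ac_rfl

/-! ### Torsion points off the identity component -/

theorem pow_left_injective_of_ne_zero {n : ℕ} (hn : n ≠ 0) {a b : Γ} (h : a ^ n = b ^ n) :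
    a = b :=
  (pow_left_inj₀ zero_le zero_le hn).1 h

section Torsion

variable {p : ℕ} [hp : Fact p.Prime] {P : Pt}

/-- The component value `g₀` of a `p`-torsion point off `E₀` satisfies `g₀ ^ p = β ^ (2 k)` with
`p ∤ k`. -/
theorem exists_exponent (hP : p • P = 0) (hP0 : ¬ S.E0 P) :
    ∃ (g₀ : Γ) (k : ℤ), S.Comp P g₀ ∧ g₀ ^ p = S.β ^ (2 * k) ∧ ¬ (p : ℤ) ∣ k := by
  obtain ⟨g₀, hg₀⟩ := S.comp_total P
  obtain ⟨m, hm⟩ := S.comp_nsmul hg₀ p
  rw [hP, S.comp_zero] at hm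
  have hpow : g₀ ^ p = S.β ^ (2 * (-m)) := by
    have h1 : S.β ^ (2 * m) ≠ 0 := zpow_ne_zero _ S.β_ne_zero
    rw [mul_neg, zpow_neg]
    exact eq_inv_of_mul_eq_one_left hm
  refine ⟨g₀, -m, hg₀, hpow, ?_⟩
  rintro ⟨k', hk'⟩
  apply hP0
  have h2 : g₀ ^ p = (S.β ^ (2 * k')) ^ p := by
    rw [hpow, hk', ← zpow_natCast (S.β ^ (2 * k')) p, ← zpow_mul]
    congr 1
    ring
  have h3 : g₀ = S.β ^ (2 * k') := pow_left_injective_of_ne_zero hp.out.ne_zero h2
  rw [h3] at hg₀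
  have h4 := S.eq_one_of_comp_zpow hg₀
  rw [h4] at hg₀
  exact hg₀

/-- the component value of `j • P` and its exponent. -/
theorem exists_exponent_nsmul {g₀ : Γ} {k : ℤ} (hg₀ : S.Comp P g₀) (hk : g₀ ^ p = S.β ^ (2 * k))
    (j : ℕ) :
    ∃ (c : Γ) (e : ℤ), S.Comp (j • P) c ∧ c ^ p = S.β ^ (2 * e) ∧
      ((e : ℤ) : ZMod p) = ((k * j : ℤ) : ZMod p) ∧ -(p : ℤ) < 2 * e ∧ 2 * e ≤ p := by
  obtain ⟨m, hm⟩ := S.comp_nsmul hg₀ j
  set c := g₀ ^ j * S.β ^ (2 * m) with hc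
  have hcp : c ^ p = S.β ^ (2 * (k * j + m * p)) := by
    rw [hc, mul_pow, ← pow_mul, mul_comm j p, pow_mul, hk, ← zpow_natCast (S.β ^ (2 * k)) j,
      ← zpow_mul, ← zpow_natCast (S.β ^ (2 * m)) p, ← zpow_mul, ← zpow_add₀ S.β_ne_zero]
    congr 1
    ring
  refine ⟨c, k * j + m * p, hm, hcp, ?_, ?_, ?_⟩
  · push_cast
    rw [ZMod.natCast_self, mul_zero, add_zero]
  · have h1 : c ^ p < (S.β⁻¹) ^ p :=
      pow_lt_pow_left₀ (S.lt_β_inv_of_comp hm) zero_le hp.out.ne_zero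
    rw [hcp, ← zpow_natCast (S.β⁻¹) p, inv_zpow', S.β_zpow_lt_iff] at h1
    linarith
  · have h1 : S.β ^ p ≤ c ^ p := pow_le_pow_left₀ zero_le (S.β_le_of_comp hm) p
    rw [hcp, ← zpow_natCast S.β p, S.β_zpow_le_iff] at h1
    linarith

/-- **(LM4), single multiple.** -/
theorem vx_pow_torsion (hp2 : p ≠ 2) {g₀ : Γ} {k : ℤ} (hg₀ : S.Comp P g₀)
    (hk : g₀ ^ p = S.β ^ (2 * k)) (hpk : ¬ (p : ℤ) ∣ k) {j : ℕ}
    (hj : j ∈ Finset.Ico 1 (p / 2).succ) :
    ¬ S.E0 (j • P) ∧ S.β < S.vx (j • P) ∧ S.vx (j • P) < 1 ∧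
      S.vx (j • P) ^ p = S.β ^ (2 * (((k : ZMod p) * (j : ZMod p)).valMinAbs.natAbs)) := by
  obtain ⟨c, e, hc, hcp, hmod, hlo, hhi⟩ := S.exists_exponent_nsmul hg₀ hk j
  have hodd : p % 2 = 1 := hp.out.eq_two_or_odd.resolve_left hp2
  rw [Finset.mem_Ico] at hj
  have hjp : j < p := by omega
  -- `e` is the absolutely least residue of `k * j`
  have hval : ((k : ZMod p) * (j : ZMod p)).valMinAbs = e := by
    rw [ZMod.valMinAbs_spec]
    refine ⟨by rw [hmod]; push_cast; rfl, ?_, ?_⟩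
    · linarith
    · linarith
  have he0 : e ≠ 0 := by
    intro h0
    rw [h0, Int.cast_zero] at hmod
    have h1 : (p : ℤ) ∣ k * j := (ZMod.intCast_zmod_eq_zero_iff_dvd _ p).1 hmod.symm
    rcases (Int.Prime.dvd_mul' hp.out h1) with h2 | h2
    · exact hpk h2
    · have : p ∣ j := by exact_mod_cast h2
      have := Nat.le_of_dvd (by omega) this
      omega
  have hc1 : c ≠ 1 := by
    intro h1
    rw [h1, one_pow, ← zpow_zero S.β] at hcp
    have := S.β_zpow_injective hcp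
    omega
  have hcβ : c ≠ S.β := by
    intro h1
    rw [h1, ← zpow_natCast S.β p] at hcp
    have := S.β_zpow_injective hcp
    omega
  have hE0 : ¬ S.E0 (j • P) := fun h => hc1 (S.comp_unique _ _ _ hc h)
  rcases S.comp_range _ _ hc with h | h | ⟨h1, h2, h3⟩ | ⟨h1, h2, h3⟩
  · exact absurd h hc1
  · exact absurd h hcβ
  · refine ⟨hE0, by rw [h3]; exact h1, by rw [h3]; exact h2, ?_⟩
    have hepos : 0 < e := by
      have : c ^ p < 1 := pow_lt_one₀ zero_le h2 hp.out.ne_zero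
      rw [hcp, ← zpow_zero S.β, S.β_zpow_lt_iff] at this
      linarith
    rw [h3, hcp, hval, ← zpow_natCast S.β]
    congr 1
    push_cast
    rw [abs_of_pos hepos]
  · have hβc : S.β < c⁻¹ := by
      rw [lt_inv_comm₀ S.β_pos (lt_trans zero_lt_one h1)]
      exact h2
    have hc1' : c⁻¹ < 1 := by
      rw [inv_lt_one₀ (lt_trans zero_lt_one h1)]
      exact h1
    refine ⟨hE0, by rw [h3]; exact hβc, by rw [h3]; exact hc1', ?_⟩
    have heneg : e < 0 := by
      have : 1 < c ^ p := one_lt_pow₀ h1 hp.out.ne_zero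
      rw [hcp, ← zpow_zero S.β, S.β_zpow_lt_iff] at this
      linarith
    rw [h3, inv_pow, hcp, hval, ← zpow_neg, ← zpow_natCast S.β]
    congr 1
    push_cast
    rw [abs_of_neg heneg]
    ring

/-- **(LM4), product form.** -/
theorem prod_vx_pow (hp2 : p ≠ 2) (hP : p • P = 0) (hP0 : ¬ S.E0 P) :
    ∏ j ∈ Finset.Ico 1 (p / 2).succ, S.vx (j • P) ^ p = S.β ^ ((p ^ 2 - 1) / 4) := by
  obtain ⟨g₀, k, hg₀, hk, hpk⟩ := S.exists_exponent hP hP0
  have hk0 : (k : ZMod p) ≠ 0 := by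
    intro h
    exact hpk ((ZMod.intCast_zmod_eq_zero_iff_dvd _ p).1 h)
  rw [Finset.prod_congr rfl fun j hj => (S.vx_pow_torsion hp2 hg₀ hk hpk hj).2.2.2,
    Finset.prod_pow_eq_pow_sum, ← Finset.mul_sum]
  congr 1
  have hperm := ZMod.Ico_map_valMinAbs_natAbs_eq_Ico_map_id p (k : ZMod p) hk0
  have hsum : ∑ j ∈ Finset.Ico 1 (p / 2).succ, ((k : ZMod p) * (j : ZMod p)).valMinAbs.natAbs =
      ∑ j ∈ Finset.Ico 1 (p / 2).succ, j := by
    have := congrArg Multiset.sum hperm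
    exact this
  rw [hsum]
  have hodd : p % 2 = 1 := hp.out.eq_two_or_odd.resolve_left hp2
  have h := Finset.sum_range_id_mul_two ((p / 2).succ)
  have h' : ∑ j ∈ Finset.Ico 1 (p / 2).succ, j = ∑ j ∈ Finset.range (p / 2).succ, j := by
    rw [Finset.range_eq_Ico, ← Finset.sum_Ico_consecutive (fun j => j) (Nat.zero_le 1)
      (Nat.succ_le_succ (Nat.zero_le _)), Nat.Ico_succ_singleton, Finset.sum_singleton, zero_add]
  rw [h', mul_comm, h, Nat.succ_sub_one]
  have hp' : p = 2 * (p / 2) + 1 := by omega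
  set t := p / 2 with ht
  have hsq : p ^ 2 - 1 = 4 * (t.succ * t) := by
    rw [hp']
    have : (2 * t + 1) ^ 2 = 4 * (t.succ * t) + 1 := by
      rw [Nat.succ_eq_add_one]; ring
    rw [this, Nat.add_sub_cancel]
  rw [hsq, Nat.mul_div_cancel_left _ (by norm_num : 0 < 4)]

end Torsion

end CompSystem

end Fermat.Agent.S13
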