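/-
P-S13, WP-LM: consequences of the component calculus on the nodal normal form
`N_b : y² + x y = x³ + b x` (`S13/Nodal`), for LocalTwo / LocalP.

The additivity `comp_add` of WP-C2c is taken as the hypothesis `CompAdd A W` (it is exactly the
statement of `Nodal/Add.lean`).

* `sub_isIdent_of_map` (LM1): if `σ` preserves the valuation, then `(σ x, σ y) - (x, y) ∈ E₀`;
* `torsion_multiples` / `prod_valuation_xCoord_pow` (LM4): for `P ∉ E₀` of odd prime order `p`:
  the points `j • P`, `1 ≤ j ≤ (p-1)/2`, are off `E₀`, `v b < v (x (j • P)) < 1`, and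
  `∏_j v (x (j • P)) ^ p = v b ^ ((p² - 1)/4)`.
-/
import Mathlib
import Fermat.Agent.S13.Nodal.Basic
import Fermat.Agent.S13.LocalMultAbstract
import Fermat.Agent.Lib.EC.FunctionField.LocalOrder

set_option autoImplicit false
set_option linter.unusedSectionVars false

namespace Fermat.Agent.S13.LocalMult

open WeierstrassCurve WeierstrassCurve.Affine Fermat.Agent.S13.Nodal
open Fermat.Agent.Lib.EC.LocalOrder (xCoord xCoord_some xCoord_zero)

variable {K : Type*} [Field K] [DecidableEq K] {A : ValuationSubring K} {W : Affine K}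

/-- The additivity of the component value (= `comp_add` of WP-C2c). -/
def CompAdd (A : ValuationSubring K) (W : Affine K) : Prop :=
  ∀ (P Q : W.Point) (g g' : A.ValueGroup), Comp A P g → Comp A Q g' →
    ∃ m : ℤ, Comp A (P + Q) (g * g' * A.valuation W.a₄ ^ (2 * m))

theorem comp_range (D : NodalData A W) (P : W.Point) (g : A.ValueGroup) (h : Comp A P g) :
    g = 1 ∨ g = A.valuation W.a₄ ∨
      (A.valuation W.a₄ < g ∧ g < 1 ∧ A.valuation (xCoord W P) = g) ∨
      (1 < g ∧ g < (A.valuation W.a₄)⁻¹ ∧ A.valuation (xCoord W P) = g⁻¹) := by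
  rcases P with _ | ⟨x, y, hns⟩
  · exact Or.inl h
  · rw [comp_some_iff] at h
    rcases h with ⟨-, rfl⟩ | ⟨-, rfl⟩ | ⟨⟨h1, h2, -⟩, rfl⟩ | ⟨⟨h1, h2, -⟩, rfl⟩
    · exact Or.inl rfl
    · exact Or.inr (Or.inl rfl)
    · exact Or.inr (Or.inr (Or.inl ⟨h1, h2, rfl⟩))
    · refine Or.inr (Or.inr (Or.inr ⟨?_, ?_, ?_⟩))
      · have hx0 : 0 < A.valuation x := lt_trans D.beta_pos h1
        rw [one_lt_inv₀ hx0]
        exact h2
      · rw [inv_lt_inv₀ (lt_trans D.beta_pos h1) D.beta_pos]
        exact h1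
      · rw [inv_inv]
        rfl

/-- The component calculus of `N_b` as an abstract `CompSystem`. -/
noncomputable def compSystem (D : NodalData A W) (hadd : CompAdd A W) : CompSystem W.Point A.ValueGroup where
  β := A.valuation W.a₄
  β_pos := D.beta_pos
  β_lt_one := D.hb
  Comp := Comp A
  vx P := A.valuation (xCoord W P)
  comp_zero := comp_zero_iff A
  comp_total P := (comp_total D P).imp fun _ h => h.1
  comp_unique _ _ _ := comp_unique D
  comp_range := comp_range D
  comp_neg _ _ := comp_neg D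
  comp_add := hadd

theorem E0_iff (D : NodalData A W) (hadd : CompAdd A W) (P : W.Point) :
    (compSystem D hadd).E0 P ↔ IsIdent A P :=
  comp_one_iff D

/-- A valuation-preserving map of the coordinates preserves component values. -/
theorem comp_map (σ : K →+* K) (hv : ∀ z, A.valuation (σ z) = A.valuation z) {x y : K}
    (h : W.Nonsingular x y) (h' : W.Nonsingular (σ x) (σ y)) (g : A.ValueGroup)
    (hg : Comp A (Point.some x y h) g) : Comp A (Point.some (σ x) (σ y) h') g := by
  rw [comp_some_iff] at hg ⊢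
  have hyx : A.valuation (σ y + σ x) = A.valuation (y + x) := by rw [← map_add, hv]
  simpa only [MidPlus, MidMinus, hv, hyx] using hg

/-- The component value only depends on `v x`, `v y`, `v (y + x)`. -/
theorem comp_congr_valuation {x y x' y' : K} (h : W.Nonsingular x y) (h' : W.Nonsingular x' y')
    (hx : A.valuation x' = A.valuation x) (hy : A.valuation y' = A.valuation y)
    (hyx : A.valuation (y' + x') = A.valuation (y + x)) (g : A.ValueGroup)
    (hg : Comp A (Point.some x y h) g) : Comp A (Point.some x' y' h') g := by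
  rw [comp_some_iff] at hg ⊢
  simpa only [MidPlus, MidMinus, hx, hy, hyx] using hg

/-- **(LM1)**, coordinate form: two points whose coordinates have the same valuations differ by
an element of `E₀`. -/
theorem sub_isIdent_of_valuation_eq (D : NodalData A W) (hadd : CompAdd A W) {x y x' y' : K}
    (h : W.Nonsingular x y) (h' : W.Nonsingular x' y')
    (hx : A.valuation x' = A.valuation x) (hy : A.valuation y' = A.valuation y)
    (hyx : A.valuation (y' + x') = A.valuation (y + x)) :
    IsIdent A (Point.some x' y' h' - Point.some x y h) := by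
  set S := compSystem D hadd
  obtain ⟨g, hg, hg0⟩ := comp_total D (Point.some x y h)
  obtain ⟨m, hm⟩ := comp_neg D hg
  obtain ⟨m', hm'⟩ := hadd _ _ _ _ (comp_congr_valuation h h' hx hy hyx g hg) hm
  have hval : g * (g⁻¹ * A.valuation W.a₄ ^ (2 * m)) * A.valuation W.a₄ ^ (2 * m') =
      A.valuation W.a₄ ^ (2 * (m + m')) := by
    rw [← mul_assoc, mul_inv_cancel₀ hg0, one_mul, ← zpow_add₀ D.beta_ne_zero, mul_add]
  rw [hval, ← sub_eq_add_neg] at hm'
  have h1 := S.eq_one_of_comp_zpow (P := Point.some x' y' h' - Point.some x y h)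
    (M := m + m') hm'
  have h2 : Comp A (Point.some x' y' h' - Point.some x y h) 1 := by
    have := hm'
    rwa [show A.valuation W.a₄ ^ (2 * (m + m')) = 1 from h1] at this
  exact (comp_one_iff D).1 h2

/-- **(LM1)**, pointwise form: a valuation-preserving `σ` moves points inside `E₀`. -/
theorem sub_isIdent_of_map (D : NodalData A W) (hadd : CompAdd A W) (σ : K →+* K)
    (hv : ∀ z, A.valuation (σ z) = A.valuation z) {x y : K} (h : W.Nonsingular x y)
    (h' : W.Nonsingular (σ x) (σ y)) :
    IsIdent A (Point.some (σ x) (σ y) h' - Point.some x y h) :=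
  sub_isIdent_of_valuation_eq D hadd h h' (hv x) (hv y) (by rw [← map_add, hv])

/-- **(LM1)**, for an additive map `τ` of the points acting as `σ` on coordinates. -/
theorem sub_isIdent_of_hom (D : NodalData A W) (hadd : CompAdd A W) (σ : K →+* K)
    (hv : ∀ z, A.valuation (σ z) = A.valuation z) (τ : W.Point → W.Point)
    (hτ0 : τ 0 = 0)
    (hτ : ∀ (x y : K) (h : W.Nonsingular x y),
      ∃ h' : W.Nonsingular (σ x) (σ y), τ (Point.some x y h) = Point.some (σ x) (σ y) h')
    (P : W.Point) : IsIdent A (τ P - P) := by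
  rcases P with _ | ⟨x, y, h⟩
  · have : (Point.zero : W.Point) = 0 := rfl
    rw [this, hτ0, sub_zero]
    exact isIdent_zero A
  · obtain ⟨h', e⟩ := hτ x y h
    rw [e]
    exact sub_isIdent_of_map D hadd σ hv h h'

section Torsion

variable {p : ℕ} [hp : Fact p.Prime]

/-- **(LM4)**, single multiples. -/
theorem torsion_multiples (D : NodalData A W) (hadd : CompAdd A W) (hp2 : p ≠ 2)
    {P : W.Point} (hP : p • P = 0) (hP0 : ¬ IsIdent A P) :
    ∃ k : ℤ, ¬ (p : ℤ) ∣ k ∧ ∀ j ∈ Finset.Ico 1 (p / 2).succ,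
      ¬ IsIdent A (j • P) ∧ A.valuation W.a₄ < A.valuation (xCoord W (j • P)) ∧
        A.valuation (xCoord W (j • P)) < 1 ∧
        A.valuation (xCoord W (j • P)) ^ p =
          A.valuation W.a₄ ^ (2 * (((k : ZMod p) * (j : ZMod p)).valMinAbs.natAbs)) := by
  set S := compSystem D hadd
  have hP0' : ¬ S.E0 P := fun h => hP0 ((E0_iff D hadd P).1 h)
  obtain ⟨g₀, k, hg₀, hk, hpk⟩ := S.exists_exponent hP hP0'
  refine ⟨k, hpk, fun j hj => ?_⟩
  obtain ⟨h1, h2, h3, h4⟩ := S.vx_pow_torsion hp2 hg₀ hk hpk hj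
  exact ⟨fun h => h1 ((E0_iff D hadd _).2 h), h2, h3, h4⟩

/-- **(LM4)**, product form. -/
theorem prod_valuation_xCoord_pow (D : NodalData A W) (hadd : CompAdd A W) (hp2 : p ≠ 2)
    {P : W.Point} (hP : p • P = 0) (hP0 : ¬ IsIdent A P) :
    ∏ j ∈ Finset.Ico 1 (p / 2).succ, A.valuation (xCoord W (j • P)) ^ p =
      A.valuation W.a₄ ^ ((p ^ 2 - 1) / 4) := by
  set S := compSystem D hadd
  have hP0' : ¬ S.E0 P := fun h => hP0 ((E0_iff D hadd P).1 h)
  exact S.prod_vx_pow hp2 hP hP0'

/-- **(LM4)** in the shape of `LMInput.lm4` (helper12, note 831). -/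
theorem lm4 (D : NodalData A W) (hadd : CompAdd A W) (hp2 : p ≠ 2) (Q : W.Point)
    (hQ0 : ¬ IsIdent A Q) (hQ : p • Q = 0) :
    ∏ j ∈ Finset.Ico 1 (p / 2 + 1), A.valuation (xCoord W (j • Q)) ^ p =
      A.valuation W.a₄ ^ ((p ^ 2 - 1) / 4) :=
  prod_valuation_xCoord_pow D hadd hp2 hQ hQ0

end Torsion

end Fermat.Agent.S13.LocalMult
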