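/-
P-S13: glue between WP-C2c (`S13/Nodal/Add.lean`, `comp_add`) and WP-LM (`S13/LocalMult.lean`):
the hypothesis `CompAdd A W` of WP-LM is discharged, giving unconditional forms of (LM1), (LM4).
-/
import Mathlib
import Fermat.Agent.S13.Nodal.Add
import Fermat.Agent.S13.LocalMult

set_option autoImplicit false
set_option linter.unusedSectionVars false

namespace Fermat.Agent.S13.LocalMult

open WeierstrassCurve WeierstrassCurve.Affine Fermat.Agent.S13.Nodal
open Fermat.Agent.Lib.EC.LocalOrder (xCoord)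

variable {K : Type*} [Field K] [DecidableEq K] {A : ValuationSubring K} {W : Affine K}

/-- The additivity hypothesis of WP-LM holds for every nodal model (WP-C2c). -/
theorem compAdd (D : NodalData A W) : CompAdd A W :=
  fun _ _ _ _ hP hQ => comp_add D hP hQ

/-- **(LM1)**, pointwise form, unconditional. -/
theorem sub_isIdent_of_map' (D : NodalData A W) (σ : K →+* K)
    (hv : ∀ z, A.valuation (σ z) = A.valuation z) {x y : K} (h : W.Nonsingular x y)
    (h' : W.Nonsingular (σ x) (σ y)) :
    IsIdent A (Point.some (σ x) (σ y) h' - Point.some x y h) :=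
  sub_isIdent_of_map D (compAdd D) σ hv h h'

/-- **(LM1)**, for an additive map of the points acting as `σ` on coordinates, unconditional. -/
theorem sub_isIdent_of_hom' (D : NodalData A W) (σ : K →+* K)
    (hv : ∀ z, A.valuation (σ z) = A.valuation z) (τ : W.Point → W.Point)
    (hτ0 : τ 0 = 0)
    (hτ : ∀ (x y : K) (h : W.Nonsingular x y),
      ∃ h' : W.Nonsingular (σ x) (σ y), τ (Point.some x y h) = Point.some (σ x) (σ y) h')
    (P : W.Point) : IsIdent A (τ P - P) :=
  sub_isIdent_of_hom D (compAdd D) σ hv τ hτ0 hτ P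

section Torsion

variable {p : ℕ} [hp : Fact p.Prime]

/-- **(LM4)**, single multiples, unconditional. -/
theorem torsion_multiples' (D : NodalData A W) (hp2 : p ≠ 2)
    {P : W.Point} (hP : p • P = 0) (hP0 : ¬ IsIdent A P) :
    ∃ k : ℤ, ¬ (p : ℤ) ∣ k ∧ ∀ j ∈ Finset.Ico 1 (p / 2).succ,
      ¬ IsIdent A (j • P) ∧ A.valuation W.a₄ < A.valuation (xCoord W (j • P)) ∧
        A.valuation (xCoord W (j • P)) < 1 ∧
        A.valuation (xCoord W (j • P)) ^ p =
          A.valuation W.a₄ ^ (2 * (((k : ZMod p) * (j : ZMod p)).valMinAbs.natAbs)) :=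
  torsion_multiples D (compAdd D) hp2 hP hP0

/-- **(LM4)**, product form, unconditional. -/
theorem prod_valuation_xCoord_pow' (D : NodalData A W) (hp2 : p ≠ 2)
    {P : W.Point} (hP : p • P = 0) (hP0 : ¬ IsIdent A P) :
    ∏ j ∈ Finset.Ico 1 (p / 2).succ, A.valuation (xCoord W (j • P)) ^ p =
      A.valuation W.a₄ ^ ((p ^ 2 - 1) / 4) :=
  prod_valuation_xCoord_pow D (compAdd D) hp2 hP hP0

end Torsion

end Fermat.Agent.S13.LocalMult
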