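import Fermat.Agent.S13.LocalTwo.Main
import Fermat.Agent.S13.LocalMultFinal
import Fermat.Agent.S13.Global
import Fermat.Agent.Lib.FrobeniusExists
import Fermat.Agent.Lib.EC.FunctionField.Places

set_option autoImplicit false

/-!
# P-S13 WP-L2: the local inputs at `2` of the global skeleton

`localTwo : LocalTwo P` (U2) and `noFixedPoint : NoFixedPoint P` (R2), in the exact shape consumed
by `Fermat.Agent.S13.s13_of_blocks` (`S13/Global.lean`).
-/

namespace Fermat.Agent.S13

open WeierstrassCurve WeierstrassCurve.Affine WeierstrassCurve.Affine.Point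

/-- The input from WP-LM, unconditional. -/
theorem lmInput (P : FreyPackage) {K : Type*} [Field K] [DecidableEq K]
    (A : ValuationSubring K) (W : Affine K) (D : Nodal.NodalData A W) : LMInput P.p A W := by
  have : Fact P.p.Prime := ⟨P.pp⟩
  have hp2 : P.p ≠ 2 := by have := P.hp5; omega
  exact ⟨fun h h' hx hy hyx =>
      LocalMult.sub_isIdent_of_valuation_eq D (LocalMult.compAdd D) h h' hx hy hyx,
    fun Q hQ0 hQ => LocalMult.lm4 D (LocalMult.compAdd D) hp2 Q hQ0 hQ⟩

/-- There is a valuation subring of `ℚ̄` over `2`. -/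
theorem exists_valuationSubring_two : ∃ A : ValuationSubring Qbar, (2 : Qbar) ∈ A.nonunits := by
  have hI : (Ideal.span {(2 : ℤ)}) ≠ ⊤ := by
    rw [Ne, Ideal.span_singleton_eq_top]
    exact Int.prime_two.not_isUnit
  obtain ⟨A, -, hA⟩ := Fermat.Agent.Lib.EC.Places.exists_valuationSubring_center
    (Int.castRingHom Qbar) Int.cast_injective _ hI
  refine ⟨A, ?_⟩
  have := hA 2 (Ideal.mem_span_singleton_self _)
  simpa using this

/-- **(U2)** -/
theorem localTwo (P : FreyPackage) : LocalTwo P := by
  intro N hN hN0 hN1 A hA σ hσ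
  have := Fermat.Agent.Lib.isGalois_algebraicClosure_rat
  have hA' : (2 : Qbar) ∈ A.nonunits := by
    have : ((2 : ℕ) : Qbar) ∈ A.nonunits := hA
    simpa using this
  exact inertia_two P hA' (lmInput P A) (card_tors P) N hN hN0 hN1 hσ

/-- **(R2)** -/
theorem noFixedPoint (P : FreyPackage) : NoFixedPoint P := by
  intro N hN hN0 hN1 x hx hfix
  have := Fermat.Agent.Lib.isGalois_algebraicClosure_rat
  obtain ⟨A, hA⟩ := exists_valuationSubring_two
  exact eq_zero_of_fixed_two P hA (lmInput P A) (card_tors P) N hN hN0 hN1 x hx hfix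

end Fermat.Agent.S13
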