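/-
helper89 (P-S13, WP-MK, task 319; blueprint = note 786 §2).  Pure algebraic number theory.

* `top_of_unramified` : a normal subgroup `H` of the absolute Galois group of `ℚ` which contains
  the fixing subgroup of some finite extension and contains the inertia subgroup (in the sense
  of the prelude) of EVERY valuation subring of `ℚbar` over EVERY prime is everything
  (Minkowski: no nontrivial extension of `ℚ` is unramified everywhere).
* `mem_inertiaSubgroupIn_iff_forall` : elementwise description of `A.inertiaSubgroupIn K`.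
* `mem_inertiaSubgroupIn_smul_iff`, `inertiaSubgroupIn_smul` : `I_{τA} = τ I_A τ⁻¹`.
* `liesOverPrime_smul_iff` : `τ • A` lies over `ℓ` iff `A` does.
* `exists_smul_eq_of_liesOverPrime` : the Galois group of a Galois extension `L / ℚ` is
  transitive on the valuation subrings of `L` over a given prime.

* `inertiaSubgroupIn_le_of_le`, `top_of_unramified_of_exists`, `top_or_top_of_unramified` :
  one valuation subring per prime suffices (shape used by the S13 assembly).

The lifting lemma (BR) of the blueprint is helper19's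
`Fermat.Agent.Lib.CFT.S14.exists_inertia_lift` (landed in `Lib/CFT/S14/Bridge.lean`).
Everything lives in the namespace `Fermat.Agent.S13.Minkowski`.
-/
import Mathlib
import Fermat.Prelude.Def_FLTPrelim_Ramification
import Fermat.Agent.Lib.FrobeniusExistsAt
import Fermat.Agent.Lib.CFT.S14.Bridge
import Fermat.Agent.S05.Inertia

set_option autoImplicit false

open NumberField
open scoped Pointwise

namespace Fermat.Agent.S13.Minkowski

open Fermat.Agent.Lib Fermat.Agent.Lib.CFT.S14

/-! ### Inertia subgroups: elementwise description and conjugation -/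

section general

variable {K L : Type*} [Field K] [Field L] [Algebra K L]

/-- Elementwise description of the inertia subgroup of a valuation subring. -/
theorem mem_inertiaSubgroupIn_iff_forall (A : ValuationSubring L) (σ : L ≃ₐ[K] L) :
    σ ∈ A.inertiaSubgroupIn K ↔ σ • A = A ∧ ∀ x ∈ A, σ x - x ∈ A.nonunits := by
  constructor
  · intro hσ
    refine ⟨Fermat.Agent.S05.inertia_smul_eq hσ, fun x hx => ?_⟩
    rw [ValuationSubring.mem_nonunits_iff]
    exact Fermat.Agent.S05.inertia_sub_lt_one hσ hx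
  · rintro ⟨hA, h⟩
    have hmem : σ ∈ A.decompositionSubgroup K := MulAction.mem_stabilizer_iff.mpr hA
    rw [ValuationSubring.inertiaSubgroupIn, Subgroup.mem_map]
    refine ⟨⟨σ, hmem⟩, ?_, rfl⟩
    rw [ValuationSubring.inertiaSubgroup, MonoidHom.mem_ker]
    ext xbar
    rw [MulSemiringAction.toRingAut_apply, RingAut.one_apply]
    obtain ⟨x, rfl⟩ := IsLocalRing.residue_surjective xbar
    change (⟨σ, hmem⟩ : A.decompositionSubgroup K) • (IsLocalRing.residue A x) = _
    rw [← IsLocalRing.ResidueField.residue_smul]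
    rw [← sub_eq_zero, ← map_sub, IsLocalRing.residue_eq_zero_iff]
    rw [← ValuationSubring.coe_mem_nonunits_iff]
    have hcoe : (((⟨σ, hmem⟩ : A.decompositionSubgroup K) • x - x : A) : L) =
        σ (x : L) - (x : L) := rfl
    rw [hcoe]
    exact h x x.2

/-- The maximal ideal of a translate of a valuation subring. -/
theorem mem_nonunits_smul_iff (τ : L ≃ₐ[K] L) (A : ValuationSubring L) (x : L) :
    x ∈ (τ • A).nonunits ↔ τ⁻¹ x ∈ A.nonunits := by
  rw [ValuationSubring.mem_nonunits_iff_or, ValuationSubring.mem_nonunits_iff_or,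
    ValuationSubring.mem_pointwise_smul_iff_inv_smul_mem]
  have h1 : τ⁻¹ • x⁻¹ = (τ⁻¹ x)⁻¹ := by
    rw [AlgEquiv.smul_def, map_inv₀]
  have h2 : τ⁻¹ x = 0 ↔ x = 0 := by
    rw [map_eq_zero_iff _ (τ⁻¹).injective]
  rw [h1, h2]

theorem mem_smul_iff (τ : L ≃ₐ[K] L) (A : ValuationSubring L) (x : L) :
    x ∈ τ • A ↔ τ⁻¹ x ∈ A :=
  ValuationSubring.mem_pointwise_smul_iff_inv_smul_mem

/-- **Conjugation of inertia subgroups**, elementwise form: `σ ∈ I_{τA} ↔ τ⁻¹ σ τ ∈ I_A`. -/
theorem mem_inertiaSubgroupIn_smul_iff (τ σ : L ≃ₐ[K] L) (A : ValuationSubring L) :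
    σ ∈ (τ • A).inertiaSubgroupIn K ↔ τ⁻¹ * σ * τ ∈ A.inertiaSubgroupIn K := by
  rw [mem_inertiaSubgroupIn_iff_forall, mem_inertiaSubgroupIn_iff_forall]
  have hstab : σ • τ • A = τ • A ↔ (τ⁻¹ * σ * τ) • A = A := by
    rw [mul_smul, mul_smul, inv_smul_eq_iff]
  have hmove : (∀ x ∈ τ • A, σ x - x ∈ (τ • A).nonunits) ↔
      ∀ y ∈ A, (τ⁻¹ * σ * τ) y - y ∈ A.nonunits := by
    constructor
    · intro h y hy
      have h1 : τ y ∈ τ • A := by
        rw [mem_smul_iff]
        rw [show τ⁻¹ (τ y) = y from τ.symm_apply_apply y]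
        exact hy
      have h2 := h (τ y) h1
      rw [mem_nonunits_smul_iff, map_sub] at h2
      rw [show τ⁻¹ (τ y) = y from τ.symm_apply_apply y] at h2
      exact h2
    · intro h x hx
      rw [mem_smul_iff] at hx
      have h2 := h (τ⁻¹ x) hx
      rw [mem_nonunits_smul_iff, map_sub]
      have h3 : (τ⁻¹ * σ * τ) (τ⁻¹ x) = τ⁻¹ (σ x) := by
        change τ⁻¹ (σ (τ (τ⁻¹ x))) = _
        rw [show τ (τ⁻¹ x) = x from τ.apply_symm_apply x]
      rw [h3] at h2
      exact h2
  rw [hstab, hmove]

/-- **Conjugation of inertia subgroups**: `I_{τA} = τ I_A τ⁻¹`. -/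
theorem inertiaSubgroupIn_smul (τ : L ≃ₐ[K] L) (A : ValuationSubring L) :
    (τ • A).inertiaSubgroupIn K =
      (A.inertiaSubgroupIn K).map (MulAut.conj τ).toMonoidHom := by
  ext σ
  rw [mem_inertiaSubgroupIn_smul_iff, Subgroup.mem_map]
  constructor
  · intro h
    refine ⟨τ⁻¹ * σ * τ, h, ?_⟩
    simp [MulAut.conj_apply, mul_assoc]
  · rintro ⟨ρ, hρ, rfl⟩
    have : τ⁻¹ * (MulAut.conj τ).toMonoidHom ρ * τ = ρ := by
      simp [MulAut.conj_apply, mul_assoc]
    rw [this]
    exact hρ

/-- A normal subgroup containing `I_A` contains `I_{τA}`. -/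
theorem inertiaSubgroupIn_smul_le (H : Subgroup (L ≃ₐ[K] L)) [hH : H.Normal] (τ : L ≃ₐ[K] L)
    (A : ValuationSubring L) (h : A.inertiaSubgroupIn K ≤ H) :
    (τ • A).inertiaSubgroupIn K ≤ H := by
  intro σ hσ
  rw [mem_inertiaSubgroupIn_smul_iff] at hσ
  have h1 := hH.conj_mem _ (h hσ) τ
  have h2 : τ * (τ⁻¹ * σ * τ) * τ⁻¹ = σ := by group
  rw [h2] at h1
  exact h1

/-- A translate of a valuation subring lies over the same rational prime. -/
theorem liesOverPrime_smul_iff (τ : L ≃ₐ[K] L) (A : ValuationSubring L) (ℓ : ℕ) :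
    (τ • A).LiesOverPrime ℓ ↔ A.LiesOverPrime ℓ := by
  unfold ValuationSubring.LiesOverPrime
  rw [mem_nonunits_smul_iff, map_natCast]

end general

/-! ### Transitivity on the valuation subrings over a prime -/

section transitive

variable {L : Type*} [Field L]

/-- A valuation subring of an algebraic extension of `ℚ` lying over a prime is determined by
the prime of the ring of all algebraic integers it cuts out. -/
theorem le_of_primeOfValuationSubring_le [CharZero L] (hL : ∀ x : L, IsAlgebraic ℤ x)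
    {ℓ : ℕ} (hℓ : ℓ.Prime) (A A' : ValuationSubring L) (hA : A.LiesOverPrime ℓ)
    (h : primeOfValuationSubring A' ≤ primeOfValuationSubring A) : A ≤ A' := by
  intro x hx
  obtain ⟨s, hs, hsA, hsx⟩ := exists_integral_mul A hℓ hA hx (hL x)
  have hsA' : s ∉ A'.nonunits := fun hmem => hsA (h (show (⟨s, hs⟩ : integralClosure ℤ L) ∈
    primeOfValuationSubring A' from hmem))
  have h1 : A'.valuation s = 1 := by
    rw [ValuationSubring.mem_nonunits_iff, not_lt] at hsA'
    exact le_antisymm
      ((A'.valuation_le_one_iff _).mpr (mem_valuationSubring_of_isIntegral A' hs)) hsA'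
  have h3 := (A'.valuation_le_one_iff _).mpr (mem_valuationSubring_of_isIntegral A' hsx)
  rw [map_mul, h1, one_mul] at h3
  exact (A'.valuation_le_one_iff _).mp h3

theorem eq_of_primeOfValuationSubring_eq [CharZero L] (hL : ∀ x : L, IsAlgebraic ℤ x)
    {ℓ : ℕ} (hℓ : ℓ.Prime) (A A' : ValuationSubring L) (hA : A.LiesOverPrime ℓ)
    (hA' : A'.LiesOverPrime ℓ)
    (h : primeOfValuationSubring A = primeOfValuationSubring A') : A = A' :=
  le_antisymm (le_of_primeOfValuationSubring_le hL hℓ A A' hA h.ge)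
    (le_of_primeOfValuationSubring_le hL hℓ A' A hA' h.le)

variable [Algebra ℚ L]

/-- The prime of algebraic integers cut out by a translate of a valuation subring. -/
theorem primeOfValuationSubring_smul (τ : L ≃ₐ[ℚ] L) (A : ValuationSubring L) :
    letI := galActionIntegers (L := L)
    primeOfValuationSubring (τ • A) = τ • primeOfValuationSubring A := by
  let _ := galActionIntegers (L := L)
  ext b
  rw [Ideal.mem_pointwise_smul_iff_inv_smul_mem, mem_primeOfValuationSubring,
    mem_primeOfValuationSubring, mem_nonunits_smul_iff]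
  rfl

omit [Algebra ℚ L] in
/-- The rational prime below the prime cut out by a valuation subring over `ℓ`. -/
theorem under_primeOfValuationSubring {ℓ : ℕ} (hℓ : ℓ.Prime) (A : ValuationSubring L)
    (hA : A.LiesOverPrime ℓ) :
    (primeOfValuationSubring A).under ℤ = Ideal.span {(ℓ : ℤ)} := by
  have hprime : ((primeOfValuationSubring A).under ℤ).IsPrime :=
    haveI := primeOfValuationSubring_isPrime A
    Ideal.IsPrime.under ℤ _
  have hmem : (ℓ : ℤ) ∈ (primeOfValuationSubring A).under ℤ := by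
    show algebraMap ℤ (integralClosure ℤ L) (ℓ : ℤ) ∈ primeOfValuationSubring A
    rw [mem_primeOfValuationSubring]
    have hA' : (ℓ : L) ∈ A.nonunits := hA
    simpa using hA'
  have hmax : (Ideal.span {(ℓ : ℤ)}).IsMaximal :=
    PrincipalIdealRing.isMaximal_of_irreducible (Nat.prime_iff_prime_int.mp hℓ).irreducible
  exact (hmax.eq_of_le hprime.ne_top ((Ideal.span_singleton_le_iff_mem _).mpr hmem)).symm

/-- **Transitivity.**  The Galois group of a Galois extension `L / ℚ` acts transitively on the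
valuation subrings of `L` lying over a given prime. -/
theorem exists_smul_eq_of_liesOverPrime [IsGalois ℚ L] {ℓ : ℕ} (hℓ : ℓ.Prime)
    (A A' : ValuationSubring L) (hA : A.LiesOverPrime ℓ) (hA' : A'.LiesOverPrime ℓ) :
    ∃ τ : L ≃ₐ[ℚ] L, τ • A = A' := by
  have : CharZero L := algebraRat.charZero L
  have hLalg : ∀ x : L, IsAlgebraic ℤ x := fun x =>
    (IsFractionRing.isAlgebraic_iff ℤ ℚ L).mpr (Algebra.IsAlgebraic.isAlgebraic x)
  let _ := galActionIntegers (L := L)
  have := galActionIntegers_smulComm (L := L)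
  have := galActionIntegers_isInvariant (L := L)
  let _ : TopologicalSpace (integralClosure ℤ L) := ⊥
  have : DiscreteTopology (integralClosure ℤ L) := ⟨rfl⟩
  have : ContinuousSMul (L ≃ₐ[ℚ] L) (integralClosure ℤ L) := by
    rw [continuousSMul_iff_stabilizer_isOpen]
    intro b
    convert stabilizer_isOpen_of_isIntegral (K := ℚ) (L := L) (b : L) using 1
    ext σ
    simp only [SetLike.mem_coe, MulAction.mem_stabilizer_iff]
    constructor
    · intro h
      exact congrArg Subtype.val h
    · intro h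
      exact Subtype.ext h
  have hQ : (primeOfValuationSubring A).IsPrime := primeOfValuationSubring_isPrime A
  have hQ' : (primeOfValuationSubring A').IsPrime := primeOfValuationSubring_isPrime A'
  obtain ⟨τ, hτ⟩ := Algebra.IsInvariant.exists_smul_of_under_eq_of_profinite
    (A := ℤ) (G := L ≃ₐ[ℚ] L) (primeOfValuationSubring A) (primeOfValuationSubring A')
    ((under_primeOfValuationSubring hℓ A hA).trans (under_primeOfValuationSubring hℓ A' hA').symm)
  refine ⟨τ, eq_of_primeOfValuationSubring_eq hLalg hℓ (τ • A) A'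
    ((liesOverPrime_smul_iff τ A ℓ).mpr hA) hA' ?_⟩
  rw [hτ]
  exact primeOfValuationSubring_smul τ A

end transitive

/-! ### Minkowski: no nontrivial everywhere unramified extension of `ℚ` -/

section minkowski

/-- A Galois number field different from `ℚ` has a maximal ideal with a nontrivial inertia
group (Minkowski's theorem, in the form provided by Mathlib, plus `|I| = e`). -/
theorem exists_ne_one_mem_inertia (F : Type*) [Field F] [NumberField F] [IsGalois ℚ F]
    (h : Module.finrank ℚ F ≠ 1) :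
    ∃ (P : Ideal (𝓞 F)) (_ : P.IsMaximal) (τ : Gal(F/ℚ)),
      τ ∈ Ideal.inertia Gal(F/ℚ) P ∧ τ ≠ 1 := by
  obtain ⟨P, hP, hram⟩ := NumberField.exists_not_isUnramifiedAt_int (𝒪 := 𝓞 F) h
  refine ⟨P, hP, ?_⟩
  by_contra hcon
  push Not at hcon
  apply hram
  have hbot : Ideal.inertia Gal(F/ℚ) P = ⊥ := by
    rw [Subgroup.eq_bot_iff_forall]
    exact hcon
  have hcard := Ideal.card_inertia_eq_ramificationIdxIn (G := Gal(F/ℚ)) (P.under ℤ) P
  rw [Ideal.ramificationIdxIn_eq_ramificationIdx (P.under ℤ) P Gal(F/ℚ), hbot,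
    Subgroup.card_bot] at hcard
  exact Ideal.ramificationIdx_eq_one_iff.mp hcard.symm

/-- **Minkowski, Galois-theoretic form.**  A normal subgroup `H` of the absolute Galois group
of `ℚ` containing the fixing subgroup of a finite extension and the inertia subgroups of all
valuation subrings of `ℚbar` over all primes is the whole group. -/
theorem top_of_unramified (H : Subgroup (Qbar ≃ₐ[ℚ] Qbar)) [hH : H.Normal]
    (hF : ∃ F : IntermediateField ℚ Qbar, FiniteDimensional ℚ F ∧ F.fixingSubgroup ≤ H)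
    (hI : ∀ ℓ, ℓ.Prime → ∀ A : ValuationSubring Qbar, A.LiesOverPrime ℓ →
      A.inertiaSubgroupIn ℚ ≤ H) : H = ⊤ := by
  have := Fermat.Agent.Lib.isGalois_algebraicClosure_rat
  obtain ⟨F', hF'fin, hF'H⟩ := hF
  -- `H` is open, hence closed
  have hopen : IsOpen (H : Set (Qbar ≃ₐ[ℚ] Qbar)) :=
    Subgroup.isOpen_mono hF'H (IntermediateField.fixingSubgroup_isOpen F')
  have hclosed : IsClosed (H : Set (Qbar ≃ₐ[ℚ] Qbar)) := Subgroup.isClosed_of_isOpen H hopen
  let Hc : ClosedSubgroup (Qbar ≃ₐ[ℚ] Qbar) := ⟨H, hclosed⟩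
  let F : IntermediateField ℚ Qbar := IntermediateField.fixedField H
  have hfix : F.fixingSubgroup = H := InfiniteGalois.fixingSubgroup_fixedField Hc
  have hFle : F ≤ F' := by
    rw [← InfiniteGalois.fixedField_fixingSubgroup F']
    exact IntermediateField.fixedField_antitone hF'H
  have : FiniteDimensional ℚ F :=
    FiniteDimensional.of_injective (IntermediateField.inclusion hFle).toLinearMap
      (IntermediateField.inclusion hFle).injective
  have : IsGalois ℚ F := by
    have e : (DivisionRing.toRatAlgebra : Algebra ℚ F) = IntermediateField.algebra' F :=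
      Subsingleton.elim _ _
    rw [e, ← InfiniteGalois.normal_iff_isGalois, hfix]
    exact hH
  by_contra hne
  have hrank : Module.finrank ℚ F ≠ 1 := by
    intro h1
    have hbot : F = ⊥ := IntermediateField.finrank_eq_one_iff.mp h1
    apply hne
    rw [← hfix, hbot, IntermediateField.fixingSubgroup_bot]
  obtain ⟨P, hP, τ, hτ, hτ1⟩ := exists_ne_one_mem_inertia F hrank
  have hP0 : P ≠ ⊥ := Ring.ne_bot_of_isMaximal_of_not_isField hP (RingOfIntegers.not_isField F)
  obtain ⟨l, A, hl, hA, -, s, hs, hsτ⟩ := exists_inertia_lift F P hP.isPrime hP0 τ hτ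
  have hsH : s ∈ F.fixingSubgroup := by
    rw [hfix]
    exact hI l hl A hA hs
  apply hτ1
  rw [← hsτ]
  ext x
  have h1 := AlgEquiv.restrictNormal_commutes s F x
  have h2 : s (algebraMap F Qbar x) = algebraMap F Qbar x :=
    (IntermediateField.mem_fixingSubgroup_iff F s).mp hsH x x.2
  rw [h2] at h1
  exact h1

/-- **Uniformity over a prime.**  If a normal subgroup contains the inertia subgroup of ONE
valuation subring of `ℚbar` over `ℓ`, it contains the inertia subgroups of ALL of them. -/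
theorem inertiaSubgroupIn_le_of_le {ℓ : ℕ} (hℓ : ℓ.Prime) (H : Subgroup (Qbar ≃ₐ[ℚ] Qbar))
    [H.Normal] (A₀ : ValuationSubring Qbar) (hA₀ : A₀.LiesOverPrime ℓ)
    (h : A₀.inertiaSubgroupIn ℚ ≤ H) (A : ValuationSubring Qbar) (hA : A.LiesOverPrime ℓ) :
    A.inertiaSubgroupIn ℚ ≤ H := by
  have := Fermat.Agent.Lib.isGalois_algebraicClosure_rat
  obtain ⟨τ, rfl⟩ := exists_smul_eq_of_liesOverPrime hℓ A₀ A hA₀ hA
  exact inertiaSubgroupIn_smul_le H τ A₀ h

/-- Minkowski with one valuation subring per prime. -/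
theorem top_of_unramified_of_exists (H : Subgroup (Qbar ≃ₐ[ℚ] Qbar)) [H.Normal]
    (hF : ∃ F : IntermediateField ℚ Qbar, FiniteDimensional ℚ F ∧ F.fixingSubgroup ≤ H)
    (hI : ∀ ℓ, ℓ.Prime → ∃ A : ValuationSubring Qbar, A.LiesOverPrime ℓ ∧
      A.inertiaSubgroupIn ℚ ≤ H) : H = ⊤ := by
  refine top_of_unramified H hF fun ℓ hℓ A hA => ?_
  obtain ⟨A₀, hA₀, h⟩ := hI ℓ hℓ
  exact inertiaSubgroupIn_le_of_le hℓ H A₀ hA₀ h A hA

/-- Minkowski for a pair of normal subgroups, in the shape used by the S13 assembly: away from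
`p` both subgroups contain inertia, and at ONE valuation subring over `p` one of them does. -/
theorem top_or_top_of_unramified (H₁ H₂ : Subgroup (Qbar ≃ₐ[ℚ] Qbar)) [H₁.Normal] [H₂.Normal]
    (hF₁ : ∃ F : IntermediateField ℚ Qbar, FiniteDimensional ℚ F ∧ F.fixingSubgroup ≤ H₁)
    (hF₂ : ∃ F : IntermediateField ℚ Qbar, FiniteDimensional ℚ F ∧ F.fixingSubgroup ≤ H₂)
    (p : ℕ)
    (hI : ∀ ℓ, ℓ.Prime → ℓ ≠ p → ∃ A : ValuationSubring Qbar, A.LiesOverPrime ℓ ∧
      A.inertiaSubgroupIn ℚ ≤ H₁ ∧ A.inertiaSubgroupIn ℚ ≤ H₂)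
    (hp : ∃ B : ValuationSubring Qbar, B.LiesOverPrime p ∧
      (B.inertiaSubgroupIn ℚ ≤ H₁ ∨ B.inertiaSubgroupIn ℚ ≤ H₂)) :
    H₁ = ⊤ ∨ H₂ = ⊤ := by
  obtain ⟨B, hB, h | h⟩ := hp
  · left
    refine top_of_unramified_of_exists H₁ hF₁ fun ℓ hℓ => ?_
    by_cases hℓp : ℓ = p
    · subst hℓp
      exact ⟨B, hB, h⟩
    · obtain ⟨A, hA, h1, -⟩ := hI ℓ hℓ hℓp
      exact ⟨A, hA, h1⟩
  · right
    refine top_of_unramified_of_exists H₂ hF₂ fun ℓ hℓ => ?_
    by_cases hℓp : ℓ = p
    · subst hℓp
      exact ⟨B, hB, h⟩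
    · obtain ⟨A, hA, -, h2⟩ := hI ℓ hℓ hℓp
      exact ⟨A, hA, h2⟩

end minkowski

end Fermat.Agent.S13.Minkowski
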