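/-
helper89 (P-S13, WP-MK, task 319): the two global blocks of helper80's `S13/Global.lean`
(`Minkowski` and `TransOver`) in exactly the shapes consumed by `s13_of_blocks`.
-/
import Fermat.Agent.S13.Global
import Fermat.Agent.S13.Minkowski

set_option autoImplicit false

open scoped Pointwise

namespace Fermat.Agent.S13.MinkowskiGlue

/-- Block (MK) of the S13 assembly. -/
theorem minkowski : Fermat.Agent.S13.Minkowski := fun H hH hF hI =>
  @Fermat.Agent.S13.Minkowski.top_of_unramified H hH hF hI

/-- Block (TransOver) of the S13 assembly. -/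
theorem transOver : Fermat.Agent.S13.TransOver := fun _ hℓ A B hA hB =>
  haveI := Fermat.Agent.Lib.isGalois_algebraicClosure_rat
  Fermat.Agent.S13.Minkowski.exists_smul_eq_of_liesOverPrime hℓ A B hA hB

end Fermat.Agent.S13.MinkowskiGlue
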