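import Mathlib
import Fermat.Agent.Gateway.ES.ResidueField

/-!
# The Gauss-norm step of the product formula (P-S13, WP-G2 step (iii))

Pure polynomial / valuation statement, no elliptic curves.

`K` algebraically closed, `B` a valuation subring with valuation `v`.  Let `Num D : K[X]` with
`D` monic, `deg D < deg Num`, such that all roots of `Num` and all roots of `Num - D` lie in `B`.
Then `∏_{r ∈ roots D} max 1 (v r) ≤ v (leadingCoeff Num)`.

In the application `Num / D = x(n • P_gen)`, `leadingCoeff Num = n⁻²`, the roots of `D` are the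
`x(P)`, `P ∈ E[n] ∖ 0`, the roots of `Num - e • D` are the `x(Q)` with `x(n Q) = e` (`e = 0, 1`),
which are integral because the kernel of reduction is a subgroup.
-/

set_option autoImplicit false

noncomputable section

namespace Fermat.Agent.S13.GaussNorm

open Polynomial

variable {K : Type*} [Field K] (B : ValuationSubring K)

/-- If `x ∈ B` and `r ∉ B` then `v (x - r) = v r`. -/
theorem valuation_sub_of_notMem {x r : K} (hx : x ∈ B) (hr : r ∉ B) :
    B.valuation (x - r) = B.valuation r := by
  have h1 : B.valuation x ≤ 1 := (B.valuation_le_one_iff x).mpr hx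
  have h2 : 1 < B.valuation r := by
    rw [← not_le]
    exact fun h => hr ((B.valuation_le_one_iff r).mp h)
  rw [Valuation.map_sub_swap]
  exact Valuation.map_sub_eq_of_lt_left _ (lt_of_le_of_lt h1 h2)

/-- If `x, r ∈ B` then `v (x - r) ≤ 1`. -/
theorem valuation_sub_le_one {x r : K} (hx : x ∈ B) (hr : r ∈ B) :
    B.valuation (x - r) ≤ 1 :=
  (B.valuation_le_one_iff _).mpr (B.sub_mem hx hr)

/-- The residue field of a valuation subring of an algebraically closed field is infinite; hence
one can choose an integral `x₀` whose residue avoids the residues of finitely many integral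
elements. -/
theorem exists_avoid [IsAlgClosed K] (s : Finset K) :
    ∃ x₀ ∈ B, ∀ r ∈ s, r ∈ B → B.valuation (x₀ - r) = 1 := by
  classical
  have : IsAlgClosed (IsLocalRing.ResidueField B) :=
    Fermat.Agent.Gateway.ES.isAlgClosed_residueField B
  let f : K → IsLocalRing.ResidueField B := fun r =>
    if h : r ∈ B then IsLocalRing.residue B ⟨r, h⟩ else 0
  obtain ⟨t, ht⟩ := Infinite.exists_notMem_finset (s.image f)
  obtain ⟨x, hx⟩ := IsLocalRing.residue_surjective (R := B) t
  refine ⟨x.1, x.2, fun r hrs hrB => ?_⟩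
  have hne : IsLocalRing.residue B (x - ⟨r, hrB⟩) ≠ 0 := by
    rw [map_sub, hx]
    intro h0
    apply ht
    rw [Finset.mem_image]
    refine ⟨r, hrs, ?_⟩
    have : f r = IsLocalRing.residue B ⟨r, hrB⟩ := by simp [f, hrB]
    rw [this]
    exact (sub_eq_zero.mp h0).symm
  have hunit : IsUnit (x - ⟨r, hrB⟩ : B) := by
    by_contra hnu
    exact hne ((IsLocalRing.residue_eq_zero_iff _).mpr
      ((IsLocalRing.mem_maximalIdeal _).mpr hnu))
  have := (B.valuation_eq_one_iff (x - ⟨r, hrB⟩)).mp hunit
  simpa using this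

variable [IsAlgClosed K]

/-- A polynomial all of whose roots are integral takes values of size at most its leading
coefficient at integral arguments. -/
theorem valuation_eval_le (P : K[X]) (hroots : ∀ ρ, P.IsRoot ρ → ρ ∈ B) {x : K} (hx : x ∈ B) :
    B.valuation (P.eval x) ≤ B.valuation P.leadingCoeff := by
  by_cases hP : P = 0
  · simp [hP]
  rw [(IsAlgClosed.splits P).eval_eq_prod_roots x, map_mul]
  have hle : B.valuation ((P.roots.map (x - ·)).prod) ≤ 1 := by
    rw [map_multiset_prod, Multiset.map_map]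
    refine (Multiset.prod_map_le_prod_map₀ _ (fun _ => (1 : B.ValueGroup))
      (fun _ _ => zero_le) ?_).trans ?_
    · intro ρ hρ
      exact valuation_sub_le_one B hx (hroots ρ ((mem_roots hP).mp hρ))
    · simp
  calc B.valuation P.leadingCoeff * B.valuation ((P.roots.map (x - ·)).prod)
      ≤ B.valuation P.leadingCoeff * 1 := by gcongr
    _ = B.valuation P.leadingCoeff := mul_one _

/-- For monic `D` and an integral `x₀` whose residue avoids the residues of the integral roots of
`D`, `v (D x₀) = ∏_{r ∈ roots D} max 1 (v r)`. -/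
theorem valuation_eval_eq_prod_max (D : K[X]) (hD : D.Monic) {x₀ : K} (hx₀ : x₀ ∈ B)
    (havoid : ∀ r ∈ D.roots, r ∈ B → B.valuation (x₀ - r) = 1) :
    B.valuation (D.eval x₀) = (D.roots.map fun r => max 1 (B.valuation r)).prod := by
  rw [(IsAlgClosed.splits D).eval_eq_prod_roots_of_monic hD x₀, map_multiset_prod,
    Multiset.map_map]
  congr 1
  apply Multiset.map_congr rfl
  intro r hr
  by_cases hrB : r ∈ B
  · have h1 : B.valuation r ≤ 1 := (B.valuation_le_one_iff r).mpr hrB
    simp only [Function.comp_apply]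
    rw [havoid r hr hrB, max_eq_left h1]
  · have h2 : 1 < B.valuation r := by
      rw [← not_le]
      exact fun h => hrB ((B.valuation_le_one_iff r).mp h)
    simp only [Function.comp_apply]
    rw [valuation_sub_of_notMem B hx₀ hrB, max_eq_right h2.le]

/-- **Gauss-norm lemma.** `D` monic, `deg D < deg Num`, all roots of `Num` and of `Num - D`
integral. Then `∏_{r ∈ roots D} max 1 (v r) ≤ v (leadingCoeff Num)`. -/
theorem prod_max_one_valuation_roots_le (Num D : K[X]) (hD : D.Monic)
    (hdeg : D.natDegree < Num.natDegree)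
    (h0 : ∀ ρ, Num.IsRoot ρ → ρ ∈ B) (h1 : ∀ ρ, (Num - D).IsRoot ρ → ρ ∈ B) :
    (D.roots.map fun r => max 1 (B.valuation r)).prod ≤ B.valuation Num.leadingCoeff := by
  classical
  obtain ⟨x₀, hx₀, havoid⟩ := exists_avoid B D.roots.toFinset
  have havoid' : ∀ r ∈ D.roots, r ∈ B → B.valuation (x₀ - r) = 1 := fun r hr hrB =>
    havoid r (Multiset.mem_toFinset.mpr hr) hrB
  rw [← valuation_eval_eq_prod_max B D hD hx₀ havoid']
  have hdeg' : D.degree < Num.degree := degree_lt_degree hdeg
  have hlead : (Num - D).leadingCoeff = Num.leadingCoeff :=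
    leadingCoeff_sub_of_degree_lt hdeg'
  have e0 := valuation_eval_le B Num h0 hx₀
  have e1 := valuation_eval_le B (Num - D) h1 hx₀
  rw [hlead] at e1
  have hD' : D.eval x₀ = Num.eval x₀ - (Num - D).eval x₀ := by
    rw [eval_sub]; ring
  rw [hD']
  exact (Valuation.map_sub _ _ _).trans (max_le e0 e1)

/-- Variant with `e • D` subtracted (`e ∈ B`, e.g. `e = 1`), for arbitrary two values `e₀ ≠ e₁`
with `v (e₁ - e₀) = 1`. -/
theorem prod_max_one_valuation_roots_le' (Num D : K[X]) (hD : D.Monic)
    (hdeg : D.natDegree < Num.natDegree) (e₀ e₁ : K) (he : B.valuation (e₁ - e₀) = 1)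
    (h0 : ∀ ρ, (Num - C e₀ * D).IsRoot ρ → ρ ∈ B)
    (h1 : ∀ ρ, (Num - C e₁ * D).IsRoot ρ → ρ ∈ B) :
    (D.roots.map fun r => max 1 (B.valuation r)).prod ≤ B.valuation Num.leadingCoeff := by
  classical
  obtain ⟨x₀, hx₀, havoid⟩ := exists_avoid B D.roots.toFinset
  have havoid' : ∀ r ∈ D.roots, r ∈ B → B.valuation (x₀ - r) = 1 := fun r hr hrB =>
    havoid r (Multiset.mem_toFinset.mpr hr) hrB
  rw [← valuation_eval_eq_prod_max B D hD hx₀ havoid']
  have hdeg' : D.degree < Num.degree := degree_lt_degree hdeg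
  have hCD : ∀ e : K, (C e * D).degree ≤ D.degree := fun e => by
    by_cases he0 : e = 0
    · simp [he0]
    · rw [degree_C_mul he0]
  have hlead : ∀ e : K, (Num - C e * D).leadingCoeff = Num.leadingCoeff := fun e =>
    leadingCoeff_sub_of_degree_lt (lt_of_le_of_lt (hCD e) hdeg')
  have e0 := valuation_eval_le B (Num - C e₀ * D) h0 hx₀
  have e1 := valuation_eval_le B (Num - C e₁ * D) h1 hx₀
  rw [hlead] at e0 e1
  have hD' : (e₁ - e₀) * D.eval x₀ = (Num - C e₀ * D).eval x₀ - (Num - C e₁ * D).eval x₀ := by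
    simp only [eval_sub, eval_mul, eval_C]; ring
  have : B.valuation (D.eval x₀) = B.valuation ((e₁ - e₀) * D.eval x₀) := by
    rw [map_mul, he, one_mul]
  rw [this, hD']
  exact (Valuation.map_sub _ _ _).trans (max_le e0 e1)

/-- Consumer form: a finite family of elements whose multiset of values is a sub-multiset of
the roots of `D`. -/
theorem prod_finset_max_one_le {ι : Type*} (Num D : K[X]) (hD : D.Monic)
    (hdeg : D.natDegree < Num.natDegree)
    (h0 : ∀ ρ, Num.IsRoot ρ → ρ ∈ B) (h1 : ∀ ρ, (Num - D).IsRoot ρ → ρ ∈ B)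
    (S : Finset ι) (f : ι → K) (hS : S.val.map f ≤ D.roots) :
    ∏ i ∈ S, max 1 (B.valuation (f i)) ≤ B.valuation Num.leadingCoeff := by
  refine le_trans ?_ (prod_max_one_valuation_roots_le B Num D hD hdeg h0 h1)
  obtain ⟨u, hu⟩ := Multiset.le_iff_exists_add.mp hS
  rw [hu, Multiset.map_add, Multiset.prod_add, Multiset.map_map]
  have h1u : 1 ≤ (u.map fun r => max 1 (B.valuation r)).prod := by
    apply Multiset.one_le_prod
    intro a ha
    rw [Multiset.mem_map] at ha
    obtain ⟨r, _, rfl⟩ := ha
    exact le_max_left _ _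
  calc ∏ i ∈ S, max 1 (B.valuation (f i))
      = (S.val.map ((fun r => max 1 (B.valuation r)) ∘ f)).prod := rfl
    _ = (S.val.map ((fun r => max 1 (B.valuation r)) ∘ f)).prod * 1 := (mul_one _).symm
    _ ≤ _ := by gcongr

end Fermat.Agent.S13.GaussNorm
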