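import Fermat.Agent.S13.Global
import Fermat.Agent.S52.FamilyDescent
import Fermat.Agent.Lib.EC.FunctionField.LocalOrder

/-!
# P-S13: the half product `∏_{j = 1}^{(p-1)/2} x (j • x₀)` over a Galois-stable line is rational

`N ⊂ T = E[p](ℚ̄)` a Galois-stable submodule with `N ≠ ⊤` and `0 ≠ x₀ ∈ N`.  Then `G` permutes the
points `± j • x₀` (`1 ≤ j ≤ (p-1)/2`) by the permutation of Gauss' lemma, and `x (-Q) = x (Q)`;
hence the product of the `x`-coordinates of the `j • x₀` is fixed by `G` and so lies in `ℚ`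
(`exists_rat_halfProd`).  Used for (2c) at `2` and for the exclusion of `T ⊂ E₁` at `p`.

Also: `finrank_tors` (`= 2`), `exists_smul_eq_of_mem` (a stable `N ≠ ⊥, ⊤` is a line),
`xCoord_smul`, `coe_zmod_smul`, `xCoord_valMinAbs_nsmul`.
-/

set_option autoImplicit false

namespace Fermat.Agent.S13.HalfProduct

open WeierstrassCurve WeierstrassCurve.Affine WeierstrassCurve.Affine.Point
open Fermat.Agent.Lib.EC.LocalOrder (xCoord xCoord_some xCoord_zero)
open Fermat.Agent.S13

set_option linter.style.haveILetI false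
set_option linter.unusedSectionVars false

section General

variable {F : Type*} [Field F] [DecidableEq F] {W : Affine F}

theorem xCoord_neg' (Q : W.Point) : xCoord W (-Q) = xCoord W Q := by
  rcases Q with _ | ⟨x, y, h⟩
  · rfl
  · rw [Point.neg_some]; rfl

theorem zsmul_eq_of_intCast_eq {p : ℕ} {Q : W.Point} (hQ : p • Q = 0) {m n : ℤ}
    (h : (m : ZMod p) = (n : ZMod p)) : m • Q = n • Q := by
  rw [ZMod.intCast_eq_intCast_iff_dvd_sub] at h
  obtain ⟨t, ht⟩ := h
  have : n = m + (p : ℤ) * t := by linarith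
  rw [this, add_smul, mul_comm, mul_smul, natCast_zsmul, hQ, smul_zero, add_zero]

/-- The `x`-coordinate of `m • Q` only depends on `± m` modulo the order of `Q`. -/
theorem xCoord_valMinAbs_nsmul {p : ℕ} [NeZero p] {Q : W.Point} (hQ : p • Q = 0) (c : ZMod p) :
    xCoord W (c.valMinAbs.natAbs • Q) = xCoord W (c.val • Q) := by
  have hval : c.valMinAbs • Q = (c.val : ℤ) • Q := by
    apply zsmul_eq_of_intCast_eq hQ
    rw [ZMod.coe_valMinAbs, Int.cast_natCast, ZMod.natCast_zmod_val]
  rw [← natCast_zsmul, ← natCast_zsmul Q c.val, ← hval]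
  rcases Int.natAbs_eq c.valMinAbs with h | h
  · rw [← h]
  · have : ((c.valMinAbs.natAbs : ℕ) : ℤ) = -c.valMinAbs := by omega
    rw [this, neg_smul, xCoord_neg']

end General

section Tors

variable {P : FreyPackage}

/-- Galois acts on `x`-coordinates through the field automorphism. -/
theorem xCoord_smul (σ : GQ) (Q : (P.freyCurve⁄Qbar).Point) :
    xCoord _ (σ • Q) = σ (xCoord _ Q) := by
  rw [algEquiv_smul_def]
  rcases Q with _ | ⟨x, y, h⟩
  · change (0 : Qbar) = σ 0
    rw [_root_.map_zero]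
  · rw [Point.map_some]
    rfl

theorem coe_smul_tors (σ : GQ) (x : Tors P) :
    ((σ • x : Tors P) : (P.freyCurve⁄Qbar).Point) = σ • (x : (P.freyCurve⁄Qbar).Point) := rfl

/-- The `ZMod p`-module structure on the torsion, in terms of multiples of points. -/
theorem coe_zmod_smul (c : ZMod P.p) (x : Tors P) :
    ((c • x : Tors P) : (P.freyCurve⁄Qbar).Point) = c.val • (x : (P.freyCurve⁄Qbar).Point) := by
  have : NeZero P.p := ⟨P.hp0⟩
  have h : c • x = c.val • x := by
    conv_lhs => rw [← ZMod.natCast_zmod_val c]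
    exact Nat.cast_smul_eq_nsmul _ _ _
  rw [h]
  rfl

theorem nsmul_coe_eq_zero (x : Tors P) : P.p • (x : (P.freyCurve⁄Qbar).Point) = 0 := by
  have := x.2
  rw [Submodule.mem_torsionBy_iff] at this
  rwa [natCast_zsmul] at this

theorem finrank_tors : Module.finrank (ZMod P.p) (Tors P) = 2 := by
  have : Fact P.p.Prime := ⟨P.pp⟩
  have : Finite (Tors P) := Nat.finite_of_card_ne_zero (by
    rw [card_tors]; exact pow_ne_zero 2 P.hp0)
  haveI : Fintype (Tors P) := Fintype.ofFinite _
  have h := Module.card_eq_pow_finrank (K := ZMod P.p) (V := Tors P)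
  rw [ZMod.card, ← Nat.card_eq_fintype_card, card_tors] at h
  exact (Nat.pow_right_injective P.pp.two_le h).symm

/-- A stable submodule `N ≠ ⊥, ⊤` is a line: every element is a multiple of a given nonzero
element. -/
theorem exists_smul_eq_of_mem (N : Submodule (ZMod P.p) (Tors P)) (h1 : N ≠ ⊤)
    {x : Tors P} (hx : x ∈ N) (hx0 : x ≠ 0) {w : Tors P} (hw : w ∈ N) :
    ∃ c : ZMod P.p, c • x = w := by
  have : Fact P.p.Prime := ⟨P.pp⟩
  have : Finite (Tors P) := Nat.finite_of_card_ne_zero (by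
    rw [card_tors]; exact pow_ne_zero 2 P.hp0)
  have : FiniteDimensional (ZMod P.p) (Tors P) := Module.Finite.of_finite
  have hlt : Module.finrank (ZMod P.p) N < 2 := by
    rw [← finrank_tors (P := P)]
    exact Submodule.finrank_lt h1
  have hpos : 0 < Module.finrank (ZMod P.p) N := by
    rw [Module.finrank_pos_iff_exists_ne_zero]
    exact ⟨⟨x, hx⟩, fun h => hx0 (congrArg Subtype.val h)⟩
  have hone : Module.finrank (ZMod P.p) N = 1 := by omega
  have hne : (⟨x, hx⟩ : N) ≠ 0 := fun h => hx0 (congrArg Subtype.val h)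
  obtain ⟨c, hc⟩ := (finrank_eq_one_iff_of_nonzero' (⟨x, hx⟩ : N) hne).mp hone ⟨w, hw⟩
  exact ⟨c, congrArg Subtype.val hc⟩

end Tors

section Main

variable {P : FreyPackage}

/-- The half product `∏_{j = 1}^{(p-1)/2} x (j • x₀)`. -/
noncomputable def halfProd (x : Tors P) : Qbar :=
  ∏ j ∈ Finset.Ico 1 (P.p / 2 + 1), xCoord _ (j • (x : (P.freyCurve⁄Qbar).Point))

theorem nsmul_eq_of_natCast_eq {F : Type*} [Field F] [DecidableEq F] {W : Affine F} {p : ℕ}
    {Q : W.Point} (hQ : p • Q = 0) {m n : ℕ} (h : (m : ZMod p) = (n : ZMod p)) :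
    m • Q = n • Q := by
  rw [← natCast_zsmul, ← natCast_zsmul Q n]
  apply zsmul_eq_of_intCast_eq hQ
  rw [Int.cast_natCast, Int.cast_natCast, h]

/-- The half product over a Galois-stable line is Galois-invariant. -/
theorem map_halfProd (N : Submodule (ZMod P.p) (Tors P)) (hN : IsGaloisStable ℚ N) (h1 : N ≠ ⊤)
    {x : Tors P} (hx : x ∈ N) (hx0 : x ≠ 0) (σ : GQ) : σ (halfProd x) = halfProd x := by
  haveI : Fact P.p.Prime := ⟨P.pp⟩
  haveI : NeZero P.p := ⟨P.hp0⟩
  obtain ⟨c, hc⟩ := exists_smul_eq_of_mem N h1 hx hx0 (hN σ x hx)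
  have hc0 : c ≠ 0 := by
    rintro rfl
    rw [zero_smul] at hc
    apply hx0
    have : σ⁻¹ • (σ • x) = 0 := by rw [← hc, smul_zero]
    rwa [inv_smul_smul] at this
  set Q : (P.freyCurve⁄Qbar).Point := (x : (P.freyCurve⁄Qbar).Point) with hQdef
  have hQ : P.p • Q = 0 := nsmul_coe_eq_zero x
  have hσQ : σ • Q = c.val • Q := by
    rw [hQdef, ← coe_smul_tors, ← hc, coe_zmod_smul]
  -- termwise
  have hterm : ∀ j : ℕ, σ (xCoord _ (j • Q)) =
      xCoord _ ((c * (j : ZMod P.p)).valMinAbs.natAbs • Q) := by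
    intro j
    rw [← xCoord_smul, xCoord_valMinAbs_nsmul hQ]
    have h1 : σ • (j • Q) = j • (σ • Q) := by
      rw [algEquiv_smul_def, algEquiv_smul_def, map_nsmul]
    rw [h1, hσQ, ← mul_smul]
    congr 1
    apply nsmul_eq_of_natCast_eq hQ
    rw [ZMod.natCast_zmod_val, Nat.cast_mul, ZMod.natCast_zmod_val, mul_comm]
  unfold halfProd
  rw [map_prod]
  rw [Finset.prod_congr rfl (fun j _ => hterm j)]
  have hG := ZMod.Ico_map_valMinAbs_natAbs_eq_Ico_map_id P.p c hc0
  rw [Finset.prod_eq_multiset_prod, Finset.prod_eq_multiset_prod]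
  have e1 : Multiset.map (fun j : ℕ => xCoord _ ((c * (j : ZMod P.p)).valMinAbs.natAbs • Q))
      (Finset.Ico 1 (P.p / 2 + 1)).val =
      Multiset.map (fun m : ℕ => xCoord _ (m • Q))
        (Multiset.map (fun j : ℕ => (c * (j : ZMod P.p)).valMinAbs.natAbs)
          (Finset.Ico 1 (P.p / 2).succ).val) := by
    rw [Multiset.map_map]
    rfl
  rw [e1, hG, Multiset.map_map]
  rfl

/-- **The half product over a Galois-stable line is rational.** -/
theorem exists_rat_halfProd (N : Submodule (ZMod P.p) (Tors P)) (hN : IsGaloisStable ℚ N)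
    (h1 : N ≠ ⊤) {x : Tors P} (hx : x ∈ N) (hx0 : x ≠ 0) :
    ∃ r : ℚ, algebraMap ℚ Qbar r = halfProd x :=
  Fermat.Agent.S52.FamilyDescent.exists_rat_of_fixed _ (map_halfProd N hN h1 hx hx0)

end Main

end Fermat.Agent.S13.HalfProduct
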