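/-
helper2.  P-S13: an automorphism `σ` of an algebraic extension `L/K` which stabilises a valuation
subring `A` of `L` preserves the valuation: `v (σ x) = v x` for all `x`.

(For a general valuation subring `σ` only induces an order automorphism of the value group; here
every `x` has a finite `σ`-orbit, and a strictly monotone sequence cannot be periodic.)
-/
import Mathlib
import Fermat.Prelude.Def_FLTPrelim_Ramification

set_option autoImplicit false

namespace Fermat.Agent.S13.InertiaVal

open scoped Pointwise

variable {K L : Type*} [Field K] [Field L] [Algebra K L]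

theorem map_mem_iff_of_smul_eq {A : ValuationSubring L} {σ : L ≃ₐ[K] L} (hσ : σ • A = A)
    (y : L) : σ y ∈ A ↔ y ∈ A := by
  constructor
  · intro h
    rw [← hσ] at h
    obtain ⟨s, hs, hsy⟩ := (ValuationSubring.mem_smul_pointwise_iff_exists _ _ _).mp h
    have : s = y := σ.injective hsy
    rwa [← this]
  · intro h
    have h1 : σ • y ∈ σ • A := ValuationSubring.smul_mem_pointwise_smul _ _ _ h
    rw [hσ] at h1
    exact h1

theorem valuation_map_le_iff {A : ValuationSubring L} {σ : L ≃ₐ[K] L} (hσ : σ • A = A)
    (a b : L) : A.valuation (σ a) ≤ A.valuation (σ b) ↔ A.valuation a ≤ A.valuation b := by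
  by_cases hb : b = 0
  · subst hb
    simp
  · have hσb : σ b ≠ 0 := by simpa using hb
    have hvb : 0 < A.valuation b := (Valuation.pos_iff _).mpr hb
    have hvσb : 0 < A.valuation (σ b) := (Valuation.pos_iff _).mpr hσb
    have h1 : A.valuation a ≤ A.valuation b ↔ a / b ∈ A := by
      rw [← A.valuation_le_one_iff, map_div₀, div_le_one₀ hvb]
    have h2 : A.valuation (σ a) ≤ A.valuation (σ b) ↔ σ (a / b) ∈ A := by
      rw [← A.valuation_le_one_iff, map_div₀, map_div₀, div_le_one₀ hvσb]
    rw [h1, h2, map_mem_iff_of_smul_eq hσ]

theorem valuation_map_lt_iff {A : ValuationSubring L} {σ : L ≃ₐ[K] L} (hσ : σ • A = A)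
    (a b : L) : A.valuation (σ a) < A.valuation (σ b) ↔ A.valuation a < A.valuation b := by
  rw [← not_le, ← not_le, valuation_map_le_iff hσ]

/-- Every element of an algebraic extension has a finite orbit under an automorphism. -/
theorem exists_iterate_eq [Algebra.IsAlgebraic K L] (σ : L ≃ₐ[K] L) (x : L) :
    ∃ n : ℕ, 0 < n ∧ (⇑σ)^[n] x = x := by
  have hx : IsAlgebraic K x := Algebra.IsAlgebraic.isAlgebraic x
  have hint : IsIntegral K x := hx.isIntegral
  set p := minpoly K x with hp
  have hp0 : p ≠ 0 := minpoly.ne_zero hint
  have hroot : ∀ n : ℕ, (⇑σ)^[n] x ∈ p.rootSet L := by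
    intro n
    induction n with
    | zero =>
      rw [Function.iterate_zero, id, Polynomial.mem_rootSet]
      exact ⟨hp0, minpoly.aeval K x⟩
    | succ n ih =>
      rw [Function.iterate_succ_apply']
      rw [Polynomial.mem_rootSet] at ih ⊢
      refine ⟨hp0, ?_⟩
      have := Polynomial.aeval_algHom_apply σ.toAlgHom ((⇑σ)^[n] x) p
      rw [ih.2, map_zero] at this
      exact this
  have hfin : Finite (p.rootSet L) := Polynomial.rootSet_finite p L
  obtain ⟨m, n, hmn, heq⟩ := Finite.exists_ne_map_eq_of_infinite
    (fun n : ℕ => (⟨(⇑σ)^[n] x, hroot n⟩ : p.rootSet L))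
  have heq' : (⇑σ)^[m] x = (⇑σ)^[n] x := congrArg Subtype.val heq
  have key : ∀ a b : ℕ, a < b → (⇑σ)^[a] x = (⇑σ)^[b] x → ∃ n : ℕ, 0 < n ∧ (⇑σ)^[n] x = x := by
    intro a b hab h
    refine ⟨b - a, by omega, ?_⟩
    have hb : b = a + (b - a) := by omega
    rw [hb, Function.iterate_add_apply] at h
    exact ((σ.injective.iterate a) h).symm
  rcases lt_or_gt_of_ne hmn with h | h
  · exact key m n h heq'
  · exact key n m h heq'.symm

/-- An automorphism of an algebraic extension stabilising a valuation subring preserves its
valuation. -/
theorem valuation_map_eq [Algebra.IsAlgebraic K L] {A : ValuationSubring L} {σ : L ≃ₐ[K] L}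
    (hσ : σ • A = A) (x : L) : A.valuation (σ x) = A.valuation x := by
  obtain ⟨n, hn, hnx⟩ := exists_iterate_eq σ x
  -- a strict inequality propagates along the orbit
  have chain : ∀ y : L, A.valuation (σ y) < A.valuation y →
      ∀ m : ℕ, 0 < m → A.valuation ((⇑σ)^[m] y) < A.valuation y := by
    intro y hy
    have step : ∀ m : ℕ, A.valuation ((⇑σ)^[m] (σ y)) < A.valuation ((⇑σ)^[m] y) := by
      intro m
      induction m with
      | zero => simpa using hy
      | succ m ih =>
        rw [Function.iterate_succ_apply', Function.iterate_succ_apply']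
        exact (valuation_map_lt_iff hσ _ _).mpr ih
    intro m hm
    induction m with
    | zero => omega
    | succ m ih =>
      rcases Nat.eq_zero_or_pos m with h0 | hpos
      · subst h0
        simpa using hy
      · rw [Function.iterate_succ_apply]
        exact lt_trans (step m) (ih hpos)
  have chain' : ∀ y : L, A.valuation y < A.valuation (σ y) →
      ∀ m : ℕ, 0 < m → A.valuation y < A.valuation ((⇑σ)^[m] y) := by
    intro y hy
    have step : ∀ m : ℕ, A.valuation ((⇑σ)^[m] y) < A.valuation ((⇑σ)^[m] (σ y)) := by
      intro m
      induction m with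
      | zero => simpa using hy
      | succ m ih =>
        rw [Function.iterate_succ_apply', Function.iterate_succ_apply']
        exact (valuation_map_lt_iff hσ _ _).mpr ih
    intro m hm
    induction m with
    | zero => omega
    | succ m ih =>
      rcases Nat.eq_zero_or_pos m with h0 | hpos
      · subst h0
        simpa using hy
      · rw [Function.iterate_succ_apply]
        exact lt_trans (ih hpos) (step m)
  rcases lt_trichotomy (A.valuation (σ x)) (A.valuation x) with h | h | h
  · have := chain x h n hn
    rw [hnx] at this
    exact absurd this (lt_irrefl _)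
  · exact h
  · have := chain' x h n hn
    rw [hnx] at this
    exact absurd this (lt_irrefl _)

/-- Elements of the inertia group of a valuation subring of an algebraic extension preserve the
valuation. -/
theorem inertia_valuation_eq [Algebra.IsAlgebraic K L] {A : ValuationSubring L}
    {σ : L ≃ₐ[K] L} (hσ : σ ∈ A.inertiaSubgroupIn K) (x : L) :
    A.valuation (σ x) = A.valuation x := by
  have hdec : σ • A = A := by
    unfold ValuationSubring.inertiaSubgroupIn at hσ
    obtain ⟨τ, -, rfl⟩ := hσ
    exact τ.2
  exact valuation_map_eq hdec x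

end Fermat.Agent.S13.InertiaVal
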