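/-
P-S13, fact (L0) of the blueprint (team note 786, section 3) and two bridges.

* `kerRed_map_sub` **(L0)**: let `W'` be a Weierstrass curve over `R`, `L/R` a field, `A` a
  valuation subring of `L` over which `W'⁄L` is integral, and `f : L →ₐ[R] L` with
  `v (f t - t) < 1` for all `t ∈ A` (e.g. an element of the inertia group of `A`).  For every point
  `P` with nonsingular reduction (`IsE0`), `f P - P` lies in the kernel of reduction.
* `map_eq_self_of_isE0`: hence `f P = P` if moreover `n • P = 0` with `v n = 1`.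
* `kerRed_map`, `isE0_map`, `red_map`: `f` preserves `E₁`, `E₀` and commutes with reduction.
* `Nodal.isE0_iff_isIdent`: on the nodal normal form `y² + x y = x³ + b x`, `v b < 1`, the points
  with nonsingular reduction are exactly the identity component `IsIdent` of `S13/Nodal`.
-/
import Mathlib
import Fermat.Agent.Lib.EC.Reduction.ReductionMap
import Fermat.Agent.S13.Nodal.Defs

set_option autoImplicit false
set_option linter.unusedSectionVars false

namespace Fermat.Agent.S13.LocalL0

open WeierstrassCurve WeierstrassCurve.Affine Fermat.Agent.Lib.EC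

section General

variable {R : Type*} [CommRing R] (W' : Affine R) {L : Type*} [Field L] [DecidableEq L]
  [Algebra R L] {A : ValuationSubring L} {k : Type*} [Field k] [DecidableEq k]
  {π : A →+* k} [IsLocalHom π] {Wk : WeierstrassCurve k}

omit [DecidableEq L] in
/-- A map which is the identity modulo the maximal ideal preserves `A`. -/
theorem map_mem_of_mem (f : L →ₐ[R] L) (hf : ∀ t ∈ A, A.valuation (f t - t) < 1) {t : L}
    (ht : t ∈ A) : f t ∈ A := by
  have h1 : f t = (f t - t) + t := by ring
  rw [h1]
  exact A.add_mem _ _ ((A.valuation_le_one_iff _).mp (hf t ht).le) ht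

omit [DecidableEq L] in
/-- A map which is the identity modulo the maximal ideal preserves the complement of `A`. -/
theorem map_notMem_of_notMem (f : L →ₐ[R] L) (hf : ∀ t ∈ A, A.valuation (f t - t) < 1) {t : L}
    (ht : t ∉ A) : f t ∉ A := by
  have ht0 : t ≠ 0 := fun h => ht (h ▸ A.zero_mem)
  have hv : 1 < A.valuation t := by
    rw [← not_le, A.valuation_le_one_iff]
    exact ht
  have hinv : A.valuation t⁻¹ < 1 := by
    rw [map_inv₀]
    exact inv_lt_one_of_one_lt₀ hv
  have hmem : t⁻¹ ∈ A := (A.valuation_le_one_iff _).mp hinv.le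
  have h1 : A.valuation (f t⁻¹) < 1 := by
    have h2 : f t⁻¹ = (f t⁻¹ - t⁻¹) + t⁻¹ := by ring
    rw [h2]
    exact lt_of_le_of_lt (A.valuation.map_add _ _) (max_lt (hf _ hmem) hinv)
  rw [map_inv₀, map_inv₀] at h1
  intro hmem'
  have h3 : A.valuation (f t) ≤ 1 := (A.valuation_le_one_iff _).mpr hmem'
  have hft0 : A.valuation (f t) ≠ 0 := by
    rw [Valuation.ne_zero_iff]
    exact (map_ne_zero_iff f f.injective).mpr ht0
  have h4 : 1 ≤ (A.valuation (f t))⁻¹ := (one_le_inv₀ (zero_lt_iff.mpr hft0)).mpr h3
  exact absurd h1 (not_lt.mpr h4)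

omit [DecidableEq L] [DecidableEq k] in
theorem res_map (f : L →ₐ[R] L) (hf : ∀ t ∈ A, A.valuation (f t - t) < 1) {t : L}
    (ht : t ∈ A) : res π (f t) = res π t :=
  (res_eq_iff π (map_mem_of_mem f hf ht) ht).mpr (hf t ht)

/-- `f` preserves the kernel of reduction. -/
theorem kerRed_map (f : L →ₐ[R] L) (hf : ∀ t ∈ A, A.valuation (f t - t) < 1)
    {P : (W'⁄L).Point} (hP : KerRed A P) : KerRed A (Point.map (W' := W') f P) := by
  rcases P with _ | ⟨x, y, h⟩
  · trivial
  · rw [Point.map_some, kerRed_some]
    exact map_notMem_of_notMem f hf hP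

variable (hR : IsReduction π (W'.baseChange L) Wk)
include hR

/-- `f` preserves the points with nonsingular reduction, and commutes with reduction. -/
theorem isE0_map_and_red_map (f : L →ₐ[R] L) (hf : ∀ t ∈ A, A.valuation (f t - t) < 1)
    {P : (W'⁄L).Point} (hP : IsE0 π (W'⁄L) Wk.toAffine P) :
    IsE0 π (W'⁄L) Wk.toAffine (Point.map (W' := W') f P) ∧
      red π (W'⁄L) Wk.toAffine (Point.map (W' := W') f P) = red π (W'⁄L) Wk.toAffine P := by
  have hW : IsIntegralOver A (W'⁄L) := hR.isIntegralOver
  rcases P with _ | ⟨x, y, h⟩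
  · exact ⟨trivial, rfl⟩
  · rw [Point.map_some]
    by_cases hx : x ∈ A
    · have hy : y ∈ A := by
        by_contra hy
        exact ((kerRed_some_iff_y hW h).mpr hy) hx
      have hns := hP hx
      have ex := res_map (π := π) f hf hx
      have ey := res_map (π := π) f hf hy
      have hns' : Wk.toAffine.Nonsingular (res π (f x)) (res π (f y)) := by
        rw [ex, ey]; exact hns
      refine ⟨fun _ => hns', ?_⟩
      rw [red_some_of_mem π _ (map_mem_of_mem f hf hx) (map_mem_of_mem f hf hy) hns',
        red_some_of_mem π h hx hy hns]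
      exact some_congr _ ex ey _
    · have hfx : f x ∉ A := map_notMem_of_notMem f hf hx
      refine ⟨fun h' => absurd h' hfx, ?_⟩
      rw [red_some_of_not_mem π _ hfx, red_some_of_not_mem π h hx]

theorem isE0_map (f : L →ₐ[R] L) (hf : ∀ t ∈ A, A.valuation (f t - t) < 1)
    {P : (W'⁄L).Point} (hP : IsE0 π (W'⁄L) Wk.toAffine P) :
    IsE0 π (W'⁄L) Wk.toAffine (Point.map (W' := W') f P) :=
  (isE0_map_and_red_map W' hR f hf hP).1

theorem red_map (f : L →ₐ[R] L) (hf : ∀ t ∈ A, A.valuation (f t - t) < 1)
    {P : (W'⁄L).Point} (hP : IsE0 π (W'⁄L) Wk.toAffine P) :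
    red π (W'⁄L) Wk.toAffine (Point.map (W' := W') f P) = red π (W'⁄L) Wk.toAffine P :=
  (isE0_map_and_red_map W' hR f hf hP).2

/-- **(L0)**: a map which is the identity modulo the maximal ideal moves the points with
nonsingular reduction by elements of the kernel of reduction. -/
theorem kerRed_map_sub (f : L →ₐ[R] L) (hf : ∀ t ∈ A, A.valuation (f t - t) < 1)
    {P : (W'⁄L).Point} (hP : IsE0 π (W'⁄L) Wk.toAffine P) :
    KerRed A (Point.map (W' := W') f P - P) := by
  obtain ⟨h1, h2⟩ := isE0_map_and_red_map W' hR f hf hP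
  have h3 := hR.isE0_neg hP
  obtain ⟨h4, h5⟩ := hR.red_add h1 h3
  rw [sub_eq_add_neg]
  rw [← red_eq_zero_iff π hR.isIntegralOver h4, h5, h2, hR.red_neg, add_neg_cancel]

/-- A torsion point of order prime to the residue characteristic with nonsingular reduction is
fixed by every map which is the identity modulo the maximal ideal. -/
theorem map_eq_self_of_isE0 (f : L →ₐ[R] L) (hf : ∀ t ∈ A, A.valuation (f t - t) < 1)
    {n : ℕ} (hn : A.valuation (n : L) = 1) {P : (W'⁄L).Point}
    (hP : IsE0 π (W'⁄L) Wk.toAffine P) (hnP : n • P = 0) :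
    Point.map (W' := W') f P = P := by
  refine eq_of_kerRed_sub_of_nsmul_eq_zero hR.isIntegralOver hn (kerRed_map_sub W' hR f hf hP)
    ?_ hnP
  rw [← map_nsmul, hnP, map_zero]

end General

/-! ### The nodal normal form: `E₀` is the identity component of `S13/Nodal` -/

section NodalBridge

open Fermat.Agent.S13.Nodal

variable {K : Type*} [Field K] {A : ValuationSubring K} {k : Type*} [Field k]
  {π : A →+* k} [IsLocalHom π]

/-- On the reduction `y² + x y = x³` of the nodal normal form, a point is nonsingular iff its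
`x`-coordinate is nonzero. -/
theorem nodal_nonsingular_iff {Wk : Affine k} (h1 : Wk.a₁ = 1) (h2 : Wk.a₂ = 0) (h3 : Wk.a₃ = 0)
    (h4 : Wk.a₄ = 0) (h6 : Wk.a₆ = 0) {x y : k} (he : Wk.Equation x y) :
    Wk.Nonsingular x y ↔ x ≠ 0 := by
  rw [equation_iff, h1, h2, h3, h4, h6] at he
  rw [nonsingular_iff, equation_iff, h1, h2, h3, h4, h6]
  constructor
  · rintro ⟨-, hns⟩ hx
    subst hx
    have hy : y = 0 := by
      have : y ^ 2 = 0 := by linear_combination he
      exact pow_eq_zero_iff (two_ne_zero) |>.mp this
    subst hy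
    rcases hns with hns | hns
    · exact hns (by ring)
    · exact hns (by ring)
  · intro hx
    refine ⟨he, ?_⟩
    by_contra hcon
    rw [not_or, not_not, not_not] at hcon
    obtain ⟨c1, c2⟩ := hcon
    -- `y = 3 x²`, `2 y + x = 0`, `y² + x y = x³`
    have e1 : x * (6 * x + 1) = 0 := by linear_combination c2 - 2 * c1
    have e2 : 6 * x + 1 = 0 := (mul_eq_zero.mp e1).resolve_left hx
    have e3 : x ^ 3 * (9 * x + 2) = 0 := by
      linear_combination he + (-(y) - 3 * x ^ 2 - x) * c1
    have e4 : 9 * x + 2 = 0 := (mul_eq_zero.mp e3).resolve_left (pow_ne_zero _ hx)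
    have : (1 : k) = 0 := by linear_combination 2 * e4 - 3 * e2
    exact one_ne_zero this

/-- **Bridge**: for the nodal normal form, the points with nonsingular reduction (`IsE0` of
`Lib/EC/Reduction`) are exactly the points of the identity component (`IsIdent` of `S13/Nodal`). -/
theorem isE0_iff_isIdent {W : WeierstrassCurve K} {Wk : WeierstrassCurve k}
    (D : NodalData A W.toAffine) (hR : IsReduction π W Wk) (P : W.toAffine.Point) :
    IsE0 π W.toAffine Wk.toAffine P ↔ IsIdent A P := by
  obtain ⟨W₀, rfl, rfl⟩ := hR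
  have hinj := A.subtype_injective
  have h1 : W₀.a₁ = 1 := hinj (by simpa using D.model.a₁)
  have h2 : W₀.a₂ = 0 := hinj (by simpa using D.model.a₂)
  have h3 : W₀.a₃ = 0 := hinj (by simpa using D.model.a₃)
  have h6 : W₀.a₆ = 0 := hinj (by simpa using D.model.a₆)
  have h4 : π W₀.a₄ = 0 := by
    rw [pi_eq_zero_iff]
    exact D.hb
  rcases P with _ | ⟨x, y, h⟩
  · exact ⟨fun _ => trivial, fun _ => trivial⟩
  · rw [isE0_some, isIdent_some]
    constructor
    · intro hE
      by_contra hlt
      rw [not_le] at hlt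
      have hx : x ∈ A := (A.valuation_le_one_iff _).mp hlt.le
      obtain ⟨x', y', rfl, rfl⟩ := exists_lift_of_mem W₀ h hx
      have hns := hE hx
      rw [res_subtype, res_subtype] at hns
      have he := equation_pi π W₀ h.left
      rw [nodal_nonsingular_iff (by simp [h1]) (by simp [h2]) (by simp [h3]) (by simp [h4])
        (by simp [h6]) he] at hns
      exact hns ((pi_eq_zero_iff π x').mpr hlt)
    · intro hle hx
      obtain ⟨x', y', rfl, rfl⟩ := exists_lift_of_mem W₀ h hx
      rw [res_subtype, res_subtype]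
      have he := equation_pi π W₀ h.left
      rw [nodal_nonsingular_iff (by simp [h1]) (by simp [h2]) (by simp [h3]) (by simp [h4])
        (by simp [h6]) he]
      rw [Ne, pi_eq_zero_iff, not_lt]
      exact hle

/-- The kernel of reduction lies in the identity component. -/
theorem isIdent_of_kerRed {W : Affine K} {P : W.Point} (hP : KerRed A P) : IsIdent A P := by
  rcases P with _ | ⟨x, y, h⟩
  · trivial
  · rw [isIdent_some]
    rw [kerRed_some, ← A.valuation_le_one_iff, not_le] at hP
    exact hP.le

end NodalBridge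

end Fermat.Agent.S13.LocalL0
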